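import Mathlib
import Fermat.Agent.Lib.Frobenius

/-!
# Bridge: Mathlib's finite-level Frobenius elements and the prelude's `IsFrobeniusAt`

For a Galois number field `K` inside `AlgebraicClosure ℚ`, a prime `𝔓` of `𝓞 K` over a prime
number `p` not dividing the discriminant, and an arithmetic Frobenius `φ` at `𝔓`, there are a
valuation subring `A` of `AlgebraicClosure ℚ` over `p` and a Frobenius element `σ` at `A` (in
the sense of the prelude) restricting to `φ` on `K`.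
-/

set_option autoImplicit false
set_option linter.unusedSectionVars false
set_option linter.style.haveILetI false

namespace Fermat.Agent.Lib.FrobDensity.Bridge

open NumberField

local notation "Qbar" => AlgebraicClosure ℚ

section

variable (K : Type*) [Field K] [NumberField K] [Algebra K Qbar]

/-- the embedding of the ring of integers into `ℚ̄` -/
noncomputable def emb : 𝓞 K →+* Qbar :=
  (algebraMap K Qbar).comp (algebraMap (𝓞 K) K)

theorem emb_apply (x : 𝓞 K) : emb K x = algebraMap K Qbar (x : K) := rfl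

theorem emb_injective : Function.Injective (emb K) :=
  (algebraMap K Qbar).injective.comp RingOfIntegers.coe_injective

variable {K}

/-- a valuation subring of `ℚ̄` centred at a given maximal ideal of `𝓞 K` -/
theorem exists_valuationSubring_of_prime (𝔓 : Ideal (𝓞 K)) [h𝔓 : 𝔓.IsMaximal] :
    ∃ A : ValuationSubring Qbar, (∀ x : 𝓞 K, emb K x ∈ A) ∧
      ∀ x : 𝓞 K, emb K x ∈ A.nonunits ↔ x ∈ 𝔓 := by
  let R : Subring Qbar := (emb K).range
  let g : 𝓞 K →+* R := (emb K).rangeRestrict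
  have hg : Function.Surjective g := (emb K).rangeRestrict_surjective
  have hginj : Function.Injective g := by
    intro x y h
    apply emb_injective K
    exact congrArg Subtype.val h
  let I : Ideal R := 𝔓.map g
  have hI : I ≠ ⊤ := by
    rw [Ideal.ne_top_iff_one]
    intro h1
    rw [Ideal.mem_map_iff_of_surjective g hg] at h1
    obtain ⟨x, hx, hx1⟩ := h1
    have : x = 1 := hginj (by rw [hx1, map_one])
    rw [this] at hx
    exact h𝔓.ne_top ((Ideal.eq_top_iff_one _).2 hx)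
  obtain ⟨A, hRA, hIA⟩ := Ideal.image_subset_nonunits_valuationSubring I hI
  have hmemA : ∀ x : 𝓞 K, emb K x ∈ A := fun x => hRA ⟨x, rfl⟩
  have hmem : ∀ x ∈ 𝔓, emb K x ∈ A.nonunits := fun x hx =>
    hIA ⟨g x, Ideal.mem_map_of_mem g hx, rfl⟩
  refine ⟨A, hmemA, fun x => ⟨fun hx => ?_, hmem x⟩⟩
  by_contra hx𝔓
  obtain ⟨y, i, hi, hyi⟩ := h𝔓.exists_inv hx𝔓
  have h1 : A.valuation (emb K y * emb K x + emb K i) < 1 := by
    refine lt_of_le_of_lt (A.valuation.map_add _ _) (max_lt ?_ ?_)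
    · rw [map_mul]
      calc A.valuation (emb K y) * A.valuation (emb K x)
          ≤ 1 * A.valuation (emb K x) :=
            mul_le_mul_left ((A.valuation_le_one_iff _).2 (hmemA y)) _
        _ < 1 := by rw [one_mul]; exact (ValuationSubring.mem_nonunits_iff A).1 hx
    · exact (ValuationSubring.mem_nonunits_iff A).1 (hmem i hi)
  have h2 : emb K y * emb K x + emb K i = 1 := by
    rw [← map_mul, ← map_add, hyi, map_one]
  rw [h2, map_one] at h1
  exact lt_irrefl _ h1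

end

section main

variable (K : Type*) [Field K] [NumberField K] [IsGalois ℚ K] [Algebra K Qbar]

/-- **A4.** -/
theorem exists_isFrobeniusAt_restrict
    (p : ℕ) (hp : p.Prime) (hdisc : ¬ (p : ℤ) ∣ NumberField.discr K)
    (𝔓 : Ideal (𝓞 K)) [h𝔓p : 𝔓.IsPrime] (h𝔓 : (p : 𝓞 K) ∈ 𝔓)
    (φ : K ≃ₐ[ℚ] K) (hφ : IsArithFrobAt ℤ φ 𝔓) :
    ∃ (A : ValuationSubring Qbar) (σ : Qbar ≃ₐ[ℚ] Qbar),
      A.LiesOverPrime p ∧ A.IsFrobeniusAt σ p ∧
        ∀ x : K, σ (algebraMap K Qbar x) = algebraMap K Qbar (φ x) := by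
  have hpZ : Prime (p : ℤ) := Nat.prime_iff_prime_int.1 hp
  have hp0 : (p : 𝓞 K) ≠ 0 := by
    exact_mod_cast hp.ne_zero
  have h𝔓0 : 𝔓 ≠ ⊥ := by
    intro h
    rw [h, Ideal.mem_bot] at h𝔓
    exact hp0 h𝔓
  haveI h𝔓m : 𝔓.IsMaximal := h𝔓p.isMaximal h𝔓0
  obtain ⟨A, hA1, hA2⟩ := exists_valuationSubring_of_prime 𝔓
  have hAp : A.LiesOverPrime p := by
    show (p : Qbar) ∈ A.nonunits
    have := (hA2 (p : 𝓞 K)).2 h𝔓
    rwa [map_natCast] at this
  obtain ⟨σ, hσ⟩ := Fermat.Agent.Lib.Frobenius.exists_frob_val hp hAp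
  have hσF : A.IsFrobeniusAt σ p :=
    Fermat.Agent.Lib.Frobenius.isFrobeniusAt_of_forall_valuation_lt A σ p hσ
  refine ⟨A, σ, hAp, hσF, ?_⟩
  -- the restriction of `σ` to `K`
  set ψ : K ≃ₐ[ℚ] K := σ.restrictNormal K with hψ
  have hψ1 : ∀ x : K, algebraMap K Qbar (ψ x) = σ (algebraMap K Qbar x) := fun x =>
    AlgEquiv.restrictNormal_commutes σ K x
  -- the cardinality of the residue field of `p`
  have hunder : 𝔓.under ℤ = Ideal.span {(p : ℤ)} := by
    have : 𝔓.LiesOver (Ideal.span {(p : ℤ)}) :=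
      (Ideal.liesOver_span_iff h𝔓p.ne_top hpZ).2 (by simpa using h𝔓)
    exact this.over.symm
  have hcard : Nat.card (ℤ ⧸ 𝔓.under ℤ) = p := by
    rw [hunder]
    exact Int.card_ideal_quot p
  -- `ψ` is an arithmetic Frobenius at `𝔓`
  have hψF : IsArithFrobAt ℤ ψ 𝔓 := by
    intro x
    rw [hcard]
    rw [← hA2]
    show emb K _ ∈ A.nonunits
    rw [ValuationSubring.mem_nonunits_iff]
    have e : emb K ((MulSemiringAction.toAlgHom ℤ (𝓞 K) ψ) x - x ^ p)
        = σ (emb K x) - (emb K x) ^ p := by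
      rw [map_sub, map_pow]
      congr 1
      rw [emb_apply, emb_apply, ← hψ1]
      rfl
    rw [e]
    exact hσ _ (hA1 x)
  -- uniqueness
  haveI : Algebra.IsUnramifiedAt ℤ 𝔓 :=
    (NumberField.not_dvd_discr_iff_forall_mem K (𝓞 K) hpZ).1 hdisc 𝔓 h𝔓p (by simpa using h𝔓)
  have hQ : 𝔓.primeCompl ≤ nonZeroDivisors (𝓞 K) := by
    intro x hx
    rw [mem_nonZeroDivisors_iff_ne_zero]
    rintro rfl
    exact hx 𝔓.zero_mem
  have heq : MulSemiringAction.toAlgHom ℤ (𝓞 K) ψ = MulSemiringAction.toAlgHom ℤ (𝓞 K) φ :=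
    AlgHom.IsArithFrobAt.eq_of_isUnramifiedAt hψF hφ hQ
  have heq' : ∀ x : 𝓞 K, ψ (x : K) = φ (x : K) := by
    intro x
    have := DFunLike.congr_fun heq x
    exact congrArg (fun y : 𝓞 K => (y : K)) this
  have hψφ : ψ = φ := by
    have h1 : (ψ : K →+* K) = (φ : K →+* K) := by
      apply IsLocalization.ringHom_ext (nonZeroDivisors (𝓞 K))
      ext x
      exact heq' x
    ext x
    exact DFunLike.congr_fun h1 x
  intro x
  rw [← hψ1, hψφ]

/-- **A4**, for an intermediate field of `ℚ̄ / ℚ`. -/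
theorem exists_isFrobeniusAt_restrict_intermediateField
    (L : IntermediateField ℚ Qbar) [NumberField L] [IsGalois ℚ L]
    (p : ℕ) (hp : p.Prime) (hdisc : ¬ (p : ℤ) ∣ NumberField.discr L)
    (𝔓 : Ideal (𝓞 L)) [𝔓.IsPrime] (h𝔓 : (p : 𝓞 L) ∈ 𝔓)
    (φ : L ≃ₐ[ℚ] L) (hφ : IsArithFrobAt ℤ φ 𝔓) :
    ∃ (A : ValuationSubring Qbar) (σ : Qbar ≃ₐ[ℚ] Qbar),
      A.LiesOverPrime p ∧ A.IsFrobeniusAt σ p ∧ ∀ x : L, σ (x : Qbar) = ((φ x : L) : Qbar) :=
  exists_isFrobeniusAt_restrict L p hp hdisc 𝔓 h𝔓 φ hφ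

/-- a power of a Frobenius element restricts to the power of its restriction -/
theorem pow_restrict {σ : Qbar ≃ₐ[ℚ] Qbar} {φ : K ≃ₐ[ℚ] K}
    (h : ∀ x : K, σ (algebraMap K Qbar x) = algebraMap K Qbar (φ x)) (n : ℕ) (x : K) :
    (σ ^ n) (algebraMap K Qbar x) = algebraMap K Qbar ((φ ^ n) x) := by
  induction n generalizing x with
  | zero => simp
  | succ n ih =>
    rw [pow_succ, pow_succ, AlgEquiv.mul_apply, AlgEquiv.mul_apply, h, ih]

end main

end Fermat.Agent.Lib.FrobDensity.Bridge
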