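import Mathlib

/-!
# Frobenius density, part 1: the ideal counting function of a number field

`idealCount K n` is the number of ideals of `𝓞 K` of norm `n`.  We prove that it is
multiplicative (`idealCount_mul`) and bounded on prime powers by `(e + 1) ^ [K : ℚ]`
(`idealCount_prime_pow_le`).
-/

set_option autoImplicit false
set_option linter.unusedSectionVars false
set_option linter.unusedVariables false
set_option linter.style.haveILetI false
set_option linter.unusedSimpArgs false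

noncomputable section

namespace Fermat.Agent.Lib.FrobDensity

open NumberField

variable (K : Type*) [Field K] [NumberField K]

/-- the number of ideals of `𝓞 K` of norm `n` -/
def idealCount (n : ℕ) : ℕ := Nat.card {I : Ideal (𝓞 K) // Ideal.absNorm I = n}

instance finite_idealsOfNorm (n : ℕ) : Finite {I : Ideal (𝓞 K) // Ideal.absNorm I = n} :=
  (Ideal.finite_setOfPred_absNorm_eq (S := 𝓞 K) n).to_subtype

theorem idealCount_one : idealCount K 1 = 1 := by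
  unfold idealCount
  rw [Nat.card_eq_one_iff_unique]
  refine ⟨⟨?_⟩, ⟨⟨⊤, Ideal.absNorm_top⟩⟩⟩
  rintro ⟨I, hI⟩ ⟨J, hJ⟩
  rw [Ideal.absNorm_eq_one_iff] at hI hJ
  exact Subtype.ext (hI.trans hJ.symm)

theorem idealCount_zero : idealCount K 0 = 1 := by
  unfold idealCount
  rw [Nat.card_eq_one_iff_unique]
  refine ⟨⟨?_⟩, ⟨⟨⊥, Ideal.absNorm_bot⟩⟩⟩
  rintro ⟨I, hI⟩ ⟨J, hJ⟩
  rw [Ideal.absNorm_eq_zero_iff] at hI hJ
  exact Subtype.ext (hI.trans hJ.symm)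

variable {K}

theorem span_sup_span_eq_top {m n : ℕ} (h : m.Coprime n) :
    Ideal.span {(m : 𝓞 K)} ⊔ Ideal.span {(n : 𝓞 K)} = ⊤ := by
  rw [Ideal.eq_top_iff_one]
  have hb := Nat.gcd_eq_gcd_ab m n
  rw [h.gcd_eq_one] at hb
  have h1 : (1 : 𝓞 K) = (m : 𝓞 K) * ((Nat.gcdA m n : ℤ) : 𝓞 K)
      + (n : 𝓞 K) * ((Nat.gcdB m n : ℤ) : 𝓞 K) := by
    have := congrArg (fun z : ℤ => (z : 𝓞 K)) hb
    simpa using this
  rw [h1]
  refine Ideal.add_mem _ (Ideal.mem_sup_left ?_) (Ideal.mem_sup_right ?_)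
  · exact Ideal.mul_mem_right _ _ (Ideal.subset_span rfl)
  · exact Ideal.mul_mem_right _ _ (Ideal.subset_span rfl)

theorem natCast_norm_mem (I : Ideal (𝓞 K)) : Ideal.span {((Ideal.absNorm I : ℕ) : 𝓞 K)} ≤ I :=
  Ideal.span_singleton_absNorm_le I

/-- the `m`-part of an ideal of norm `m * n` -/
theorem sup_mul_sup_eq {m n : ℕ} (h : m.Coprime n) (A : Ideal (𝓞 K))
    (hA : Ideal.absNorm A = m * n) :
    (A ⊔ Ideal.span {(m : 𝓞 K)}) * (A ⊔ Ideal.span {(n : 𝓞 K)}) = A := by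
  apply le_antisymm
  · rw [Ideal.sup_mul, Ideal.mul_sup, Ideal.mul_sup]
    refine sup_le (sup_le Ideal.mul_le_left Ideal.mul_le_left) (sup_le Ideal.mul_le_right ?_)
    rw [Ideal.span_singleton_mul_span_singleton]
    have := natCast_norm_mem A
    rw [hA] at this
    simpa using this
  · calc A = A * ⊤ := (Ideal.mul_top A).symm
      _ = A * (Ideal.span {(m : 𝓞 K)} ⊔ Ideal.span {(n : 𝓞 K)}) := by
          rw [span_sup_span_eq_top h]
      _ = A * Ideal.span {(m : 𝓞 K)} ⊔ A * Ideal.span {(n : 𝓞 K)} := Ideal.mul_sup _ _ _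
      _ ≤ _ := by
          refine sup_le ?_ ?_
          · rw [mul_comm A]
            exact Ideal.mul_mono le_sup_right le_sup_left
          · exact Ideal.mul_mono le_sup_left le_sup_right

theorem absNorm_sup_span_dvd (A : Ideal (𝓞 K)) (m : ℕ) :
    Ideal.absNorm (A ⊔ Ideal.span {(m : 𝓞 K)}) ∣ m ^ Module.finrank ℤ (𝓞 K) := by
  have := Ideal.absNorm_dvd_absNorm_of_le (le_sup_right : Ideal.span {(m : 𝓞 K)} ≤ A ⊔ _)
  rwa [Ideal.absNorm_span_natCast] at this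

theorem absNorm_sup_span {m n : ℕ} (hm : m ≠ 0) (hn : n ≠ 0) (h : m.Coprime n)
    (A : Ideal (𝓞 K)) (hA : Ideal.absNorm A = m * n) :
    Ideal.absNorm (A ⊔ Ideal.span {(m : 𝓞 K)}) = m ∧
      Ideal.absNorm (A ⊔ Ideal.span {(n : 𝓞 K)}) = n := by
  have hprod := congrArg Ideal.absNorm (sup_mul_sup_eq h A hA)
  rw [map_mul, hA] at hprod
  set a := Ideal.absNorm (A ⊔ Ideal.span {(m : 𝓞 K)}) with ha
  set b := Ideal.absNorm (A ⊔ Ideal.span {(n : 𝓞 K)}) with hb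
  have ha1 : a ∣ m ^ Module.finrank ℤ (𝓞 K) := absNorm_sup_span_dvd A m
  have hb1 : b ∣ n ^ Module.finrank ℤ (𝓞 K) := absNorm_sup_span_dvd A n
  have hcop_a : a.Coprime n :=
    Nat.Coprime.coprime_dvd_left ha1 (Nat.Coprime.pow_left _ h)
  have hcop_b : b.Coprime m :=
    Nat.Coprime.coprime_dvd_left hb1 (Nat.Coprime.pow_left _ h.symm)
  have ham : a ∣ m := by
    have : a ∣ m * n := ⟨b, hprod.symm⟩
    exact hcop_a.dvd_of_dvd_mul_right this
  have hbn : b ∣ n := by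
    have : b ∣ m * n := ⟨a, by rw [← hprod, mul_comm]⟩
    exact hcop_b.dvd_of_dvd_mul_left this
  have hale : a ≤ m := Nat.le_of_dvd (Nat.pos_of_ne_zero hm) ham
  have hble : b ≤ n := Nat.le_of_dvd (Nat.pos_of_ne_zero hn) hbn
  have hapos : 0 < a := Nat.pos_of_ne_zero (by rintro h0; rw [h0, zero_mul] at hprod; exact (Nat.mul_ne_zero hm hn) hprod.symm)
  have hbpos : 0 < b := Nat.pos_of_ne_zero (by rintro h0; rw [h0, mul_zero] at hprod; exact (Nat.mul_ne_zero hm hn) hprod.symm)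
  constructor
  · by_contra hne
    have hlt : a < m := lt_of_le_of_ne hale hne
    have : a * b < m * n := Nat.mul_lt_mul_of_lt_of_le hlt hble (Nat.pos_of_ne_zero hn)
    omega
  · by_contra hne
    have hlt : b < n := lt_of_le_of_ne hble hne
    have : a * b < m * n := Nat.mul_lt_mul_of_le_of_lt hale hlt (Nat.pos_of_ne_zero hm)
    omega

theorem mul_sup_span_left {m n : ℕ} (h : m.Coprime n) (I J : Ideal (𝓞 K))
    (hI : Ideal.absNorm I = m) (hJ : Ideal.absNorm J = n) :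
    I * J ⊔ Ideal.span {(m : 𝓞 K)} = I := by
  have hmI : Ideal.span {(m : 𝓞 K)} ≤ I := hI ▸ natCast_norm_mem I
  have hnJ : Ideal.span {(n : 𝓞 K)} ≤ J := hJ ▸ natCast_norm_mem J
  apply le_antisymm
  · exact sup_le Ideal.mul_le_left hmI
  · have htop : J ⊔ Ideal.span {(m : 𝓞 K)} = ⊤ := by
      rw [eq_top_iff, ← span_sup_span_eq_top h.symm]
      exact sup_le_sup_right hnJ _
    calc I = I * ⊤ := (Ideal.mul_top I).symm
      _ = I * (J ⊔ Ideal.span {(m : 𝓞 K)}) := by rw [htop]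
      _ = I * J ⊔ I * Ideal.span {(m : 𝓞 K)} := Ideal.mul_sup _ _ _
      _ ≤ _ := sup_le_sup_left Ideal.mul_le_right _

variable (K)

/-- **Multiplicativity** of the ideal counting function. -/
theorem idealCount_mul {m n : ℕ} (h : m.Coprime n) :
    idealCount K (m * n) = idealCount K m * idealCount K n := by
  rcases Nat.eq_zero_or_pos m with rfl | hm
  · have hn : n = 1 := by simpa using h
    subst hn
    simp [idealCount_one]
  rcases Nat.eq_zero_or_pos n with rfl | hn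
  · have hm1 : m = 1 := by simpa using h
    subst hm1
    simp [idealCount_one]
  unfold idealCount
  rw [← Nat.card_prod]
  refine (Nat.card_congr ?_).symm
  refine
    { toFun := fun IJ => ⟨IJ.1.1 * IJ.2.1, by rw [map_mul, IJ.1.2, IJ.2.2]⟩
      invFun := fun A =>
        (⟨A.1 ⊔ Ideal.span {(m : 𝓞 K)}, (absNorm_sup_span hm.ne' hn.ne' h A.1 A.2).1⟩,
         ⟨A.1 ⊔ Ideal.span {(n : 𝓞 K)}, (absNorm_sup_span hm.ne' hn.ne' h A.1 A.2).2⟩)
      left_inv := ?_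
      right_inv := ?_ }
  · rintro ⟨⟨I, hI⟩, ⟨J, hJ⟩⟩
    refine Prod.ext (Subtype.ext ?_) (Subtype.ext ?_)
    · exact mul_sup_span_left h I J hI hJ
    · show I * J ⊔ Ideal.span {(n : 𝓞 K)} = J
      rw [mul_comm]
      exact mul_sup_span_left h.symm J I hJ hI
  · rintro ⟨A, hA⟩
    exact Subtype.ext (sup_mul_sup_eq h A hA)


/-! ### Prime powers -/

/-- the primes of `𝓞 K` containing the natural number `p` -/
def PrimesAbove (p : ℕ) : Type _ := {𝔭 : Ideal (𝓞 K) // 𝔭.IsPrime ∧ (p : 𝓞 K) ∈ 𝔭}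

variable {K}

theorem absNorm_dvd_of_natCast_mem {p : ℕ} {𝔭 : Ideal (𝓞 K)} (h : (p : 𝓞 K) ∈ 𝔭) :
    Ideal.absNorm 𝔭 ∣ p ^ Module.finrank ℚ K := by
  have h1 : Ideal.span {(p : 𝓞 K)} ≤ 𝔭 := (Ideal.span_singleton_le_iff_mem 𝔭).mpr h
  have := Ideal.absNorm_dvd_absNorm_of_le h1
  rwa [Ideal.absNorm_span_natCast, RingOfIntegers.rank] at this

theorem prime_dvd_absNorm {p : ℕ} (hp : p.Prime) {𝔭 : Ideal (𝓞 K)} (h𝔭 : 𝔭.IsPrime)
    (h : (p : 𝓞 K) ∈ 𝔭) : p ∣ Ideal.absNorm 𝔭 := by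
  obtain ⟨k, -, hk⟩ := (Nat.dvd_prime_pow hp).1 (absNorm_dvd_of_natCast_mem h)
  rcases Nat.eq_zero_or_pos k with rfl | hk0
  · rw [pow_zero, Ideal.absNorm_eq_one_iff] at hk
    exact absurd hk h𝔭.ne_top
  · rw [hk]
    exact dvd_pow_self p hk0.ne'

theorem ne_bot_of_natCast_mem {p : ℕ} (hp : p ≠ 0) {𝔭 : Ideal (𝓞 K)} (h : (p : 𝓞 K) ∈ 𝔭) :
    𝔭 ≠ ⊥ := by
  rintro rfl
  rw [Ideal.mem_bot] at h
  exact hp (by exact_mod_cast h)

variable (K)

instance finite_primesAbove (p : ℕ) [NeZero p] : Finite (PrimesAbove K p) := by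
  have hfin : {I : Ideal (𝓞 K) | Ideal.absNorm I ≤ p ^ Module.finrank ℚ K}.Finite :=
    Ideal.finite_setOfPred_absNorm_le _
  refine Set.Finite.to_subtype (hfin.subset ?_)
  rintro 𝔭 ⟨-, h⟩
  exact Nat.le_of_dvd (pow_pos (Nat.pos_of_ne_zero (NeZero.ne p)) _)
    (absNorm_dvd_of_natCast_mem h)

theorem card_primesAbove_le {p : ℕ} (hp : p.Prime) :
    haveI : NeZero p := ⟨hp.ne_zero⟩
    Nat.card (PrimesAbove K p) ≤ Module.finrank ℚ K := by
  classical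
  haveI : NeZero p := ⟨hp.ne_zero⟩
  haveI : Fintype (PrimesAbove K p) := Fintype.ofFinite _
  rw [Nat.card_eq_fintype_card]
  let s : Finset (Ideal (𝓞 K)) := Finset.univ.map ⟨fun x : PrimesAbove K p => x.1,
    Subtype.val_injective⟩
  have hs : s.card = Fintype.card (PrimesAbove K p) := by
    simp [s]
  have hmem : ∀ 𝔭 ∈ s, 𝔭.IsPrime ∧ (p : 𝓞 K) ∈ 𝔭 := by
    intro 𝔭 h𝔭
    simp only [s, Finset.mem_map, Finset.mem_univ, true_and, Function.Embedding.coeFn_mk] at h𝔭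
    obtain ⟨x, rfl⟩ := h𝔭
    exact x.2
  have hdvd : ∏ 𝔭 ∈ s, 𝔭 ∣ Ideal.span {(p : 𝓞 K)} := by
    refine Finset.prod_primes_dvd _ ?_ ?_
    · intro 𝔭 h𝔭
      exact Ideal.prime_of_isPrime (ne_bot_of_natCast_mem hp.ne_zero (hmem 𝔭 h𝔭).2) (hmem 𝔭 h𝔭).1
    · intro 𝔭 h𝔭
      rw [Ideal.dvd_iff_le, Ideal.span_singleton_le_iff_mem]
      exact (hmem 𝔭 h𝔭).2
  have h1 : Ideal.absNorm (∏ 𝔭 ∈ s, 𝔭) ∣ p ^ Module.finrank ℚ K := by
    have := Ideal.absNorm_dvd_absNorm_of_le (Ideal.dvd_iff_le.mp hdvd)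
    rwa [Ideal.absNorm_span_natCast, RingOfIntegers.rank] at this
  rw [map_prod] at h1
  have h2 : p ^ s.card ∣ ∏ 𝔭 ∈ s, Ideal.absNorm 𝔭 := by
    rw [← Finset.prod_const]
    exact Finset.prod_dvd_prod_of_dvd _ _ fun 𝔭 h𝔭 =>
      prime_dvd_absNorm hp (hmem 𝔭 h𝔭).1 (hmem 𝔭 h𝔭).2
  rw [← hs]
  exact (Nat.pow_dvd_pow_iff_le_right hp.one_lt).1 (h2.trans h1)

variable {K}

open UniqueFactorizationMonoid in
theorem count_normalizedFactors_le {p : ℕ} (hp : p.Prime) {e : ℕ} {I : Ideal (𝓞 K)}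
    (hI : Ideal.absNorm I = p ^ e) (𝔭 : Ideal (𝓞 K)) (h𝔭 : 𝔭.IsPrime) (hp𝔭 : (p : 𝓞 K) ∈ 𝔭) :
    haveI := Classical.decEq (Ideal (𝓞 K))
    Multiset.count 𝔭 (normalizedFactors I) ≤ e := by
  classical
  have hI0 : I ≠ ⊥ := by
    rintro rfl
    rw [Ideal.absNorm_bot] at hI
    exact (pow_ne_zero e hp.ne_zero) hI.symm
  set k := Multiset.count 𝔭 (normalizedFactors I) with hk
  have h1 : Multiset.replicate k 𝔭 ≤ normalizedFactors I :=
    Multiset.le_count_iff_replicate_le.mp le_rfl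
  have h2 : 𝔭 ^ k ∣ I := by
    have := Multiset.prod_dvd_prod_of_le h1
    rwa [Multiset.prod_replicate, Ideal.prod_normalizedFactors_eq_self hI0] at this
  have h3 : Ideal.absNorm 𝔭 ^ k ∣ p ^ e := by
    have := Ideal.absNorm_dvd_absNorm_of_le (Ideal.dvd_iff_le.mp h2)
    rwa [map_pow, hI] at this
  have h4 : p ^ k ∣ p ^ e := (pow_dvd_pow_of_dvd (prime_dvd_absNorm hp h𝔭 hp𝔭) k).trans h3
  exact (Nat.pow_dvd_pow_iff_le_right hp.one_lt).1 h4

variable (K)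

open UniqueFactorizationMonoid in
/-- **Bound on prime powers**: at most `(e + 1) ^ [K : ℚ]` ideals have norm `p ^ e`. -/
theorem idealCount_prime_pow_le {p : ℕ} (hp : p.Prime) (e : ℕ) :
    idealCount K (p ^ e) ≤ (e + 1) ^ Module.finrank ℚ K := by
  classical
  haveI : NeZero p := ⟨hp.ne_zero⟩
  have hinj : Function.Injective
      (fun (I : {I : Ideal (𝓞 K) // Ideal.absNorm I = p ^ e}) (𝔭 : PrimesAbove K p) =>
        (⟨Multiset.count 𝔭.1 (normalizedFactors I.1),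
          Nat.lt_succ_of_le (count_normalizedFactors_le hp I.2 𝔭.1 𝔭.2.1 𝔭.2.2)⟩ : Fin (e + 1))) := by
    rintro ⟨I, hI⟩ ⟨J, hJ⟩ h
    have hI0 : I ≠ ⊥ := by
      rintro rfl
      rw [Ideal.absNorm_bot] at hI
      exact (pow_ne_zero e hp.ne_zero) hI.symm
    have hJ0 : J ≠ ⊥ := by
      rintro rfl
      rw [Ideal.absNorm_bot] at hJ
      exact (pow_ne_zero e hp.ne_zero) hJ.symm
    have hmemI : ∀ {A : Ideal (𝓞 K)}, Ideal.absNorm A = p ^ e → A ≠ ⊥ →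
        ∀ 𝔮 ∈ normalizedFactors A, 𝔮.IsPrime ∧ (p : 𝓞 K) ∈ 𝔮 := by
      intro A hA hA0 𝔮 h𝔮
      rw [Ideal.mem_normalizedFactors_iff hA0] at h𝔮
      refine ⟨h𝔮.1, ?_⟩
      have h1 : ((p ^ e : ℕ) : 𝓞 K) ∈ 𝔮 := h𝔮.2 (hA ▸ Ideal.absNorm_mem A)
      rw [Nat.cast_pow] at h1
      exact h𝔮.1.mem_of_pow_mem e h1
    apply Subtype.ext
    show I = J
    rw [← Ideal.prod_normalizedFactors_eq_self hI0, ← Ideal.prod_normalizedFactors_eq_self hJ0]
    congr 1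
    rw [Multiset.ext]
    intro 𝔮
    by_cases h𝔮 : 𝔮.IsPrime ∧ (p : 𝓞 K) ∈ 𝔮
    · have := congrFun h ⟨𝔮, h𝔮⟩
      exact congrArg Fin.val this
    · rw [Multiset.count_eq_zero_of_notMem (fun hm => h𝔮 (hmemI hI hI0 𝔮 hm)),
        Multiset.count_eq_zero_of_notMem (fun hm => h𝔮 (hmemI hJ hJ0 𝔮 hm))]
  have h1 := Nat.card_le_card_of_injective _ hinj
  rw [Nat.card_fun, Nat.card_fin] at h1
  refine h1.trans ?_
  exact Nat.pow_le_pow_right (Nat.succ_pos e) (card_primesAbove_le K hp)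

end Fermat.Agent.Lib.FrobDensity
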