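import Mathlib
import Fermat.Agent.Lib.FrobDensity.Count

/-!
# Frobenius density, part 2: the real Dedekind zeta function and its Euler product
-/

set_option autoImplicit false
set_option linter.unusedSectionVars false
set_option linter.unusedVariables false
set_option linter.style.haveILetI false
set_option linter.unusedSimpArgs false

noncomputable section

namespace Fermat.Agent.Lib.FrobDensity

open NumberField Filter Topology

variable (K : Type*) [Field K] [NumberField K]

/-- the `n`-th term of the real Dedekind zeta series -/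
def zterm (s : ℝ) (n : ℕ) : ℝ := (idealCount K n : ℝ) * (n : ℝ) ^ (-s)

/-- the real Dedekind zeta function -/
def zetaR (s : ℝ) : ℝ := ∑' n, zterm K s n

theorem zterm_nonneg (s : ℝ) (n : ℕ) : 0 ≤ zterm K s n :=
  mul_nonneg (Nat.cast_nonneg _) (Real.rpow_nonneg (Nat.cast_nonneg _) _)

theorem zterm_zero {s : ℝ} (hs : s ≠ 0) : zterm K s 0 = 0 := by
  unfold zterm
  rw [Nat.cast_zero, Real.zero_rpow (neg_ne_zero.mpr hs), mul_zero]

theorem zterm_one (s : ℝ) : zterm K s 1 = 1 := by
  unfold zterm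
  rw [idealCount_one, Nat.cast_one, Real.one_rpow, mul_one]

theorem zterm_mul (s : ℝ) {m n : ℕ} (h : m.Coprime n) :
    zterm K s (m * n) = zterm K s m * zterm K s n := by
  unfold zterm
  rw [idealCount_mul K h, Nat.cast_mul, Nat.cast_mul,
    Real.mul_rpow (Nat.cast_nonneg m) (Nat.cast_nonneg n)]
  ring

theorem ofReal_zterm {s : ℝ} (hs : s ≠ 0) (n : ℕ) :
    ((zterm K s n : ℝ) : ℂ) =
      LSeries.term (fun n ↦ (Nat.card {I : Ideal (𝓞 K) // Ideal.absNorm I = n} : ℂ)) s n := by
  rw [LSeries.term_def]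
  split_ifs with h
  · subst h
    unfold zterm
    rw [Nat.cast_zero, Real.zero_rpow (neg_ne_zero.mpr hs), mul_zero, Complex.ofReal_zero]
  · unfold zterm idealCount
    have hn : (0 : ℝ) < n := Nat.cast_pos.mpr (Nat.pos_of_ne_zero h)
    rw [Complex.ofReal_mul, Complex.ofReal_natCast, Real.rpow_neg hn.le, Complex.ofReal_inv,
      Complex.ofReal_cpow hn.le, Complex.ofReal_natCast, div_eq_mul_inv]


theorem tendsto_sum_idealCount_div :
    Tendsto (fun n : ℕ ↦ (∑ k ∈ Finset.Icc 1 n, (idealCount K k : ℝ)) / (n : ℝ)) atTop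
      (𝓝 (dedekindZeta_residue K)) := by
  refine ((Ideal.tendsto_norm_le_div_atTop₀ K).comp tendsto_natCast_atTop_atTop).congr fun n ↦ ?_
  simp only [Function.comp_apply, Nat.cast_le, ← Nat.cast_sum, idealCount]
  congr
  rw [← add_left_inj 1, ← Ideal.card_norm_le_eq_card_norm_le_add_one,
    show Finset.Icc 1 n = Finset.Ioc 0 n from Finset.Icc_succ_left_eq_Ioc _ _,
    show 1 = Nat.card {I : Ideal (𝓞 K) // Ideal.absNorm I = 0} by simp [Ideal.absNorm_eq_zero_iff],
    Finset.sum_Ioc_add_eq_sum_Icc (n.zero_le),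
    ← Finset.card_preimage_eq_sum_card_image_eq
      (fun k _ ↦ Ideal.finite_setOfPred_absNorm_eq k)]
  simp [Set.coe_eq_subtype]

theorem lseriesSummable {s : ℝ} (hs : 1 < s) :
    LSeriesSummable (fun n ↦ ((idealCount K n : ℝ) : ℂ)) (s : ℂ) := by
  refine LSeriesSummable_of_sum_norm_bigO_and_nonneg (f := fun n ↦ (idealCount K n : ℝ)) ?_
    (fun _ ↦ Nat.cast_nonneg _) zero_le_one (by simpa using hs)
  exact Asymptotics.isBigO_atTop_natCast_rpow_of_tendsto_div_rpow (a := dedekindZeta_residue K)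
    (by simpa using tendsto_sum_idealCount_div K)

theorem summable_zterm {s : ℝ} (hs : 1 < s) : Summable (zterm K s) := by
  have h := (lseriesSummable K hs).norm
  refine h.congr fun n ↦ ?_
  have h0 : s ≠ 0 := by linarith
  have := ofReal_zterm K h0 n
  simp only [idealCount] at this ⊢
  rw [show (fun n ↦ ((Nat.card {I : Ideal (𝓞 K) // Ideal.absNorm I = n} : ℝ) : ℂ)) =
    (fun n ↦ (Nat.card {I : Ideal (𝓞 K) // Ideal.absNorm I = n} : ℂ)) by
      funext n; simp, ← this, Complex.norm_real, Real.norm_of_nonneg (zterm_nonneg K s n)]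

theorem ofReal_zetaR {s : ℝ} (hs : 1 < s) : ((zetaR K s : ℝ) : ℂ) = dedekindZeta K s := by
  have h0 : s ≠ 0 := by linarith
  unfold zetaR dedekindZeta LSeries
  rw [Complex.ofReal_tsum]
  exact tsum_congr fun n ↦ ofReal_zterm K h0 n

theorem tendsto_zetaR :
    Tendsto (fun s : ℝ ↦ (s - 1) * zetaR K s) (𝓝[>] 1) (𝓝 (dedekindZeta_residue K)) := by
  have h := tendsto_sub_one_mul_dedekindZeta_nhdsGT K
  have h2 := (Complex.continuous_re.tendsto _).comp h
  rw [Complex.ofReal_re] at h2
  refine h2.congr' ?_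
  filter_upwards [self_mem_nhdsWithin] with s hs
  have hs1 : (1 : ℝ) < s := hs
  simp only [Function.comp_apply]
  rw [← ofReal_zetaR K hs1, ← Complex.ofReal_one, ← Complex.ofReal_sub, ← Complex.ofReal_mul,
    Complex.ofReal_re]

theorem zetaR_pos {s : ℝ} (hs : 1 < s) : 0 < zetaR K s := by
  have h := (summable_zterm K hs).sum_le_tsum {1} (fun i _ ↦ zterm_nonneg K s i)
  rw [Finset.sum_singleton, zterm_one] at h
  exact lt_of_lt_of_le one_pos h

end Fermat.Agent.Lib.FrobDensity
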