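import Mathlib
import Fermat.Agent.Lib.FrobDensity.Zeta

/-!
# Frobenius density, part 3: the prime sum `∑_p a_p p^{-s}` is `log (1/(s-1)) + O(1)`
-/

set_option autoImplicit false
set_option linter.unusedSectionVars false
set_option linter.unusedVariables false
set_option linter.style.haveILetI false
set_option linter.unusedSimpArgs false

noncomputable section

namespace Fermat.Agent.Lib.FrobDensity

open NumberField Filter Topology

variable (K : Type*) [Field K] [NumberField K]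

/-- the local Euler factor at `p` -/
def localFactor (s : ℝ) (p : ℕ) : ℝ := ∑' e : ℕ, zterm K s (p ^ e)

theorem tendsto_prod_localFactor {s : ℝ} (hs : 1 < s) :
    Tendsto (fun n : ℕ ↦ ∏ p ∈ n.primesBelow, localFactor K s p) atTop (𝓝 (zetaR K s)) := by
  have hsum : Summable (fun x ↦ ‖zterm K s x‖) := by
    refine (summable_zterm K hs).congr fun n ↦ ?_
    rw [Real.norm_of_nonneg (zterm_nonneg K s n)]
  exact EulerProduct.eulerProduct (zterm_one K s) (fun h ↦ zterm_mul K s h) hsum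
    (zterm_zero K (by linarith))

theorem zterm_prime_pow (s : ℝ) (p e : ℕ) :
    zterm K s (p ^ e) = (idealCount K (p ^ e) : ℝ) * ((p : ℝ) ^ (-s)) ^ e := by
  unfold zterm
  rw [Nat.cast_pow, ← Real.rpow_pow_comm (Nat.cast_nonneg p)]

theorem summable_zterm_prime_pow {s : ℝ} (hs : 1 < s) {p : ℕ} (hp : p.Prime) :
    Summable (fun e : ℕ ↦ zterm K s (p ^ e)) :=
  (summable_zterm K hs).comp_injective (Nat.pow_right_injective hp.two_le)

/-- `x_p = p^{-s} ≤ 1/2` -/
theorem rpow_neg_le_half {s : ℝ} (hs : 1 ≤ s) {p : ℕ} (hp : p.Prime) :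
    (p : ℝ) ^ (-s) ≤ 1 / 2 := by
  have hp2 : (2 : ℝ) ≤ p := by exact_mod_cast hp.two_le
  have hp0 : (0 : ℝ) < p := by linarith
  rw [Real.rpow_neg hp0.le, one_div]
  refine inv_anti₀ (by norm_num) ?_
  calc (2 : ℝ) = 2 ^ (1 : ℝ) := (Real.rpow_one 2).symm
    _ ≤ 2 ^ s := Real.rpow_le_rpow_of_exponent_le (by norm_num) hs
    _ ≤ (p : ℝ) ^ s := Real.rpow_le_rpow (by norm_num) hp2 (by linarith)

theorem rpow_neg_sq_le {s : ℝ} (hs : 1 ≤ s) {p : ℕ} (hp : 0 < p) :
    ((p : ℝ) ^ (-s)) ^ 2 ≤ (p : ℝ) ^ (-(2 : ℝ)) := by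
  have hp1 : (1 : ℝ) ≤ p := by exact_mod_cast hp
  have hp0 : (0 : ℝ) < p := by linarith
  rw [← Real.rpow_natCast, ← Real.rpow_mul hp0.le]
  refine Real.rpow_le_rpow_of_exponent_le hp1 ?_
  push_cast
  linarith

theorem localFactor_ge {s : ℝ} (hs : 1 < s) {p : ℕ} (hp : p.Prime) :
    1 + zterm K s p ≤ localFactor K s p := by
  have h := (summable_zterm_prime_pow K hs hp).sum_le_tsum (Finset.range 2)
    (fun i _ ↦ zterm_nonneg K s _)
  rw [Finset.sum_range_succ, Finset.sum_range_one, pow_zero, pow_one, zterm_one] at h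
  exact h

/-- the constant `C_d = ∑_e (e+3)^d 2^{-e}` -/
def tailConst (d : ℕ) : ℝ := ∑' e : ℕ, ((e : ℝ) + 3) ^ d * (1 / 2 : ℝ) ^ e

theorem summable_tailConst (d : ℕ) :
    Summable (fun e : ℕ ↦ ((e : ℝ) + 3) ^ d * (1 / 2 : ℝ) ^ e) := by
  have h : Summable (fun n : ℕ ↦ (n : ℝ) ^ d * (1 / 2 : ℝ) ^ n) :=
    summable_pow_mul_geometric_of_norm_lt_one d (by norm_num)
  have h3 := ((summable_nat_add_iff 3).mpr h).mul_left 8
  refine h3.congr fun e ↦ ?_
  push_cast
  rw [pow_add]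
  ring

theorem tailConst_nonneg (d : ℕ) : 0 ≤ tailConst d :=
  tsum_nonneg fun e ↦ by positivity

theorem localFactor_le {s : ℝ} (hs : 1 < s) {p : ℕ} (hp : p.Prime) :
    localFactor K s p ≤
      1 + zterm K s p + tailConst (Module.finrank ℚ K) * ((p : ℝ) ^ (-s)) ^ 2 := by
  set x := (p : ℝ) ^ (-s) with hx
  have hx0 : 0 ≤ x := Real.rpow_nonneg (Nat.cast_nonneg p) _
  have hxh : x ≤ 1 / 2 := rpow_neg_le_half hs.le hp
  have hsum := summable_zterm_prime_pow K hs hp
  have hsplit := hsum.sum_add_tsum_nat_add 2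
  rw [Finset.sum_range_succ, Finset.sum_range_one, pow_zero, pow_one, zterm_one] at hsplit
  unfold localFactor
  rw [← hsplit]
  have htail : ∑' e : ℕ, zterm K s (p ^ (e + 2)) ≤
      ∑' e : ℕ, (((e : ℝ) + 3) ^ Module.finrank ℚ K * (1 / 2 : ℝ) ^ e) * x ^ 2 := by
    refine Summable.tsum_le_tsum ?_ ((summable_nat_add_iff 2).mpr hsum)
      ((summable_tailConst _).mul_right _)
    intro e
    rw [zterm_prime_pow, ← hx]
    have h1 : (idealCount K (p ^ (e + 2)) : ℝ) ≤ ((e : ℝ) + 3) ^ Module.finrank ℚ K := by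
      have := idealCount_prime_pow_le K hp (e + 2)
      have h2 : ((idealCount K (p ^ (e + 2)) : ℕ) : ℝ) ≤ (((e + 2 + 1) ^ Module.finrank ℚ K : ℕ) : ℝ) :=
        Nat.cast_le.mpr this
      refine h2.trans (le_of_eq ?_)
      push_cast
      ring
    have h2 : x ^ (e + 2) ≤ (1 / 2 : ℝ) ^ e * x ^ 2 := by
      rw [pow_add]
      exact mul_le_mul_of_nonneg_right (pow_le_pow_left₀ hx0 hxh e) (by positivity)
    calc (idealCount K (p ^ (e + 2)) : ℝ) * x ^ (e + 2)
        ≤ ((e : ℝ) + 3) ^ Module.finrank ℚ K * ((1 / 2 : ℝ) ^ e * x ^ 2) :=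
          mul_le_mul h1 h2 (by positivity) (by positivity)
      _ = _ := by ring
  rw [tsum_mul_right] at htail
  unfold tailConst
  linarith


/-! ### The prime sum -/

/-- the `n`-th term of the prime sum: `a_p p^{-s}` if `n = p` is prime, `0` otherwise -/
def pterm (s : ℝ) (n : ℕ) : ℝ := if n.Prime then zterm K s n else 0

/-- the prime sum `∑_p a_p p^{-s}` -/
def primeSum (s : ℝ) : ℝ := ∑' n, pterm K s n

theorem pterm_nonneg (s : ℝ) (n : ℕ) : 0 ≤ pterm K s n := by
  unfold pterm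
  split_ifs
  · exact zterm_nonneg K s n
  · exact le_rfl

theorem pterm_le_zterm (s : ℝ) (n : ℕ) : pterm K s n ≤ zterm K s n := by
  unfold pterm
  split_ifs
  · exact le_rfl
  · exact zterm_nonneg K s n

theorem pterm_of_prime (s : ℝ) {p : ℕ} (hp : p.Prime) : pterm K s p = zterm K s p := if_pos hp

theorem summable_pterm {s : ℝ} (hs : 1 < s) : Summable (pterm K s) :=
  Summable.of_nonneg_of_le (pterm_nonneg K s) (pterm_le_zterm K s) (summable_zterm K hs)

theorem sum_primesBelow_eq (s : ℝ) (N : ℕ) :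
    ∑ p ∈ N.primesBelow, zterm K s p = ∑ n ∈ Finset.range N, pterm K s n := by
  unfold Nat.primesBelow pterm
  rw [Finset.sum_filter]

theorem sum_primesBelow_le_primeSum {s : ℝ} (hs : 1 < s) (N : ℕ) :
    ∑ p ∈ N.primesBelow, zterm K s p ≤ primeSum K s := by
  rw [sum_primesBelow_eq]
  exact (summable_pterm K hs).sum_le_tsum _ (fun i _ ↦ pterm_nonneg K s i)

/-- `Z₂ = ∑ n^{-2}` -/
def zetaTwo : ℝ := ∑' n : ℕ, (n : ℝ) ^ (-(2 : ℝ))

theorem summable_zetaTwo : Summable (fun n : ℕ ↦ (n : ℝ) ^ (-(2 : ℝ))) :=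
  Real.summable_nat_rpow.mpr (by norm_num)

theorem zetaTwo_nonneg : 0 ≤ zetaTwo := tsum_nonneg fun n ↦ by positivity

theorem sum_primesBelow_sq_le {s : ℝ} (hs : 1 < s) (N : ℕ) :
    ∑ p ∈ N.primesBelow, ((p : ℝ) ^ (-s)) ^ 2 ≤ zetaTwo := by
  calc ∑ p ∈ N.primesBelow, ((p : ℝ) ^ (-s)) ^ 2
      ≤ ∑ p ∈ N.primesBelow, (p : ℝ) ^ (-(2 : ℝ)) := by
        refine Finset.sum_le_sum fun p hp ↦ ?_
        exact rpow_neg_sq_le hs.le (Nat.mem_primesBelow.mp hp).2.pos
    _ ≤ zetaTwo := summable_zetaTwo.sum_le_tsum _ (fun i _ ↦ by positivity)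

/-- **Upper bound for `ζ_K`**: `log ζ_K(s) ≤ ∑_p a_p p^{-s} + C`. -/
theorem log_zetaR_le {s : ℝ} (hs : 1 < s) :
    Real.log (zetaR K s) ≤ primeSum K s + tailConst (Module.finrank ℚ K) * zetaTwo := by
  have hle : zetaR K s ≤
      Real.exp (primeSum K s + tailConst (Module.finrank ℚ K) * zetaTwo) := by
    refine le_of_tendsto (tendsto_prod_localFactor K hs) (Eventually.of_forall fun N ↦ ?_)
    calc ∏ p ∈ N.primesBelow, localFactor K s p
        ≤ ∏ p ∈ N.primesBelow, Real.exp (zterm K s p +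
            tailConst (Module.finrank ℚ K) * ((p : ℝ) ^ (-s)) ^ 2) := by
          refine Finset.prod_le_prod (fun p hp ↦ ?_) (fun p hp ↦ ?_)
          · exact le_trans (by linarith [zterm_nonneg K s p])
              (localFactor_ge K hs (Nat.mem_primesBelow.mp hp).2)
          · refine (localFactor_le K hs (Nat.mem_primesBelow.mp hp).2).trans ?_
            have := Real.add_one_le_exp (zterm K s p +
              tailConst (Module.finrank ℚ K) * ((p : ℝ) ^ (-s)) ^ 2)
            linarith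
      _ = Real.exp (∑ p ∈ N.primesBelow, (zterm K s p +
            tailConst (Module.finrank ℚ K) * ((p : ℝ) ^ (-s)) ^ 2)) := (Real.exp_sum _ _).symm
      _ ≤ _ := by
          refine Real.exp_le_exp.mpr ?_
          rw [Finset.sum_add_distrib, ← Finset.mul_sum]
          refine add_le_add (sum_primesBelow_le_primeSum K hs N) ?_
          exact mul_le_mul_of_nonneg_left (sum_primesBelow_sq_le hs N) (tailConst_nonneg _)
  have := Real.log_le_log (zetaR_pos K hs) hle
  rwa [Real.log_exp] at this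

theorem one_add_ge_exp {y : ℝ} (hy : 0 ≤ y) : Real.exp (y - y ^ 2) ≤ 1 + y := by
  have h1 : 0 < 1 + y := by linarith
  have h2 := Real.one_sub_inv_le_log_of_pos h1
  have h3 : y - y ^ 2 ≤ 1 - (1 + y)⁻¹ := by
    have : 1 - (1 + y)⁻¹ - (y - y ^ 2) = y ^ 3 / (1 + y) := by
      field_simp
      ring
    have h4 : 0 ≤ y ^ 3 / (1 + y) := by positivity
    linarith
  calc Real.exp (y - y ^ 2) ≤ Real.exp (Real.log (1 + y)) := Real.exp_le_exp.mpr (h3.trans h2)
    _ = 1 + y := Real.exp_log h1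

theorem zterm_prime_le {s : ℝ} {p : ℕ} (hp : p.Prime) :
    zterm K s p ≤ (2 : ℝ) ^ Module.finrank ℚ K * (p : ℝ) ^ (-s) := by
  unfold zterm
  refine mul_le_mul_of_nonneg_right ?_ (Real.rpow_nonneg (Nat.cast_nonneg p) _)
  have := idealCount_prime_pow_le K hp 1
  rw [pow_one] at this
  have h2 : ((idealCount K p : ℕ) : ℝ) ≤ (((1 + 1) ^ Module.finrank ℚ K : ℕ) : ℝ) :=
    Nat.cast_le.mpr this
  refine h2.trans (le_of_eq ?_)
  push_cast
  norm_num

theorem prod_localFactor_le_zetaR {s : ℝ} (hs : 1 < s) (N : ℕ) :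
    ∏ p ∈ N.primesBelow, localFactor K s p ≤ zetaR K s := by
  have hmono : Monotone (fun n : ℕ ↦ ∏ p ∈ n.primesBelow, localFactor K s p) := by
    intro m n hmn
    refine Finset.prod_le_prod_of_subset_of_one_le ?_ ?_ ?_
    · intro p hp
      rw [Nat.mem_primesBelow] at hp ⊢
      exact ⟨lt_of_lt_of_le hp.1 hmn, hp.2⟩
    · intro p hp
      exact le_trans (by linarith [zterm_nonneg K s p])
        (localFactor_ge K hs (Nat.mem_primesBelow.mp hp).2)
    · intro p hp _
      exact le_trans (by linarith [zterm_nonneg K s p])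
        (localFactor_ge K hs (Nat.mem_primesBelow.mp hp).2)
  exact hmono.ge_of_tendsto (tendsto_prod_localFactor K hs) N

/-- **Lower bound for `ζ_K`**: `∑_p a_p p^{-s} ≤ log ζ_K(s) + C`. -/
theorem primeSum_le {s : ℝ} (hs : 1 < s) :
    primeSum K s ≤ Real.log (zetaR K s) + (4 : ℝ) ^ Module.finrank ℚ K * zetaTwo := by
  refine Real.tsum_le_of_sum_range_le (pterm_nonneg K s) fun N ↦ ?_
  rw [← sum_primesBelow_eq]
  have h1 : Real.exp (∑ p ∈ N.primesBelow, (zterm K s p - zterm K s p ^ 2)) ≤ zetaR K s := by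
    rw [Real.exp_sum]
    refine le_trans (Finset.prod_le_prod (fun p _ ↦ (Real.exp_pos _).le) fun p hp ↦ ?_)
      (prod_localFactor_le_zetaR K hs N)
    exact (one_add_ge_exp (zterm_nonneg K s p)).trans
      (localFactor_ge K hs (Nat.mem_primesBelow.mp hp).2)
  have h2 := Real.log_le_log (Real.exp_pos _) h1
  rw [Real.log_exp, Finset.sum_sub_distrib] at h2
  have h3 : ∑ p ∈ N.primesBelow, zterm K s p ^ 2 ≤
      (4 : ℝ) ^ Module.finrank ℚ K * zetaTwo := by
    calc ∑ p ∈ N.primesBelow, zterm K s p ^ 2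
        ≤ ∑ p ∈ N.primesBelow, (4 : ℝ) ^ Module.finrank ℚ K * ((p : ℝ) ^ (-s)) ^ 2 := by
          refine Finset.sum_le_sum fun p hp ↦ ?_
          have hpp := (Nat.mem_primesBelow.mp hp).2
          have := pow_le_pow_left₀ (zterm_nonneg K s p) (zterm_prime_le K (s := s) hpp) 2
          refine this.trans (le_of_eq ?_)
          rw [mul_pow, ← pow_mul, mul_comm _ 2, pow_mul]
          norm_num
      _ = (4 : ℝ) ^ Module.finrank ℚ K * ∑ p ∈ N.primesBelow, ((p : ℝ) ^ (-s)) ^ 2 :=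
          (Finset.mul_sum _ _ _).symm
      _ ≤ _ := mul_le_mul_of_nonneg_left (sum_primesBelow_sq_le hs N) (by positivity)
  linarith

/-- **The prime sum is `log (1/(s-1)) + O(1)`** as `s → 1⁺`. -/
theorem primeSum_sub_log_bdd :
    ∃ C : ℝ, ∀ᶠ s in 𝓝[>] (1 : ℝ), |primeSum K s - Real.log (1 / (s - 1))| ≤ C := by
  set ρ := dedekindZeta_residue K with hρ
  have hρpos : 0 < ρ := dedekindZeta_residue_pos K
  set C₀ := max |Real.log (ρ / 2)| |Real.log (2 * ρ)| with hC₀
  set C₁ := max (tailConst (Module.finrank ℚ K) * zetaTwo)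
    ((4 : ℝ) ^ Module.finrank ℚ K * zetaTwo) with hC₁
  refine ⟨C₀ + C₁, ?_⟩
  have hev : ∀ᶠ s in 𝓝[>] (1 : ℝ), (s - 1) * zetaR K s ∈ Set.Ioo (ρ / 2) (2 * ρ) :=
    (tendsto_zetaR K).eventually (Ioo_mem_nhds (by linarith) (by linarith))
  filter_upwards [hev, self_mem_nhdsWithin] with s hs hs1
  have hs1' : (1 : ℝ) < s := hs1
  have hsub : 0 < s - 1 := by linarith
  have hz := zetaR_pos K hs1'
  have hlog : Real.log (zetaR K s) =
      Real.log ((s - 1) * zetaR K s) + Real.log (1 / (s - 1)) := by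
    rw [Real.log_mul hsub.ne' hz.ne', one_div, Real.log_inv]
    ring
  have hb1 : Real.log (ρ / 2) ≤ Real.log ((s - 1) * zetaR K s) :=
    Real.log_le_log (by linarith) hs.1.le
  have hb2 : Real.log ((s - 1) * zetaR K s) ≤ Real.log (2 * ρ) :=
    Real.log_le_log (by nlinarith) hs.2.le
  have hb3 : |Real.log ((s - 1) * zetaR K s)| ≤ C₀ := by
    rw [abs_le]
    constructor
    · have := neg_abs_le (Real.log (ρ / 2))
      have h2 := le_max_left |Real.log (ρ / 2)| |Real.log (2 * ρ)|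
      linarith
    · have := le_abs_self (Real.log (2 * ρ))
      have h2 := le_max_right |Real.log (ρ / 2)| |Real.log (2 * ρ)|
      linarith
  have hu := log_zetaR_le K hs1'
  have hl := primeSum_le K hs1'
  have hc1 := le_max_left (tailConst (Module.finrank ℚ K) * zetaTwo)
    ((4 : ℝ) ^ Module.finrank ℚ K * zetaTwo)
  have hc2 := le_max_right (tailConst (Module.finrank ℚ K) * zetaTwo)
    ((4 : ℝ) ^ Module.finrank ℚ K * zetaTwo)
  rw [abs_le] at hb3 ⊢
  constructor <;> linarith [hb3.1, hb3.2]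

end Fermat.Agent.Lib.FrobDensity
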