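import Mathlib

/-!
# Frobenius density, part 5: Möbius inversion on a cyclic group
-/

set_option autoImplicit false
set_option linter.unusedSectionVars false
set_option linter.unusedVariables false
set_option linter.style.haveILetI false
set_option linter.unusedSimpArgs false

noncomputable section

namespace Fermat.Agent.Lib.FrobDensity

open ArithmeticFunction

/-- `∑_{d ∣ n} μ(d) (n / d) = φ(n)` -/
theorem sum_moebius_mul_div (n : ℕ) (hn : 0 < n) :
    ∑ d ∈ n.divisors, (moebius d : ℤ) * ((n / d : ℕ) : ℤ) = (n.totient : ℤ) := by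
  have h := (sum_eq_iff_sum_mul_moebius_eq (R := ℤ) (f := fun n => (n.totient : ℤ))
    (g := fun n => (n : ℤ))).mp (fun n _ => by
      have := Nat.sum_totient n
      rw [← Nat.cast_sum]
      exact_mod_cast this) n hn
  rw [← h]
  exact (Nat.sum_divisorsAntidiagonal (fun a b => (moebius a : ℤ) * (b : ℤ))).symm

variable {G : Type*} [Group G] [Finite G]

theorem mem_zpowers_pow_iff {g : G} {d j : ℕ} (hd : d ∣ orderOf g) :
    g ^ j ∈ Subgroup.zpowers (g ^ d) ↔ d ∣ j := by
  constructor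
  · intro h
    obtain ⟨k, hk⟩ := Subgroup.mem_zpowers_iff.mp h
    have h1 : g ^ ((d : ℤ) * k - (j : ℤ)) = 1 := by
      rw [zpow_sub, zpow_mul, zpow_natCast, zpow_natCast, hk, mul_inv_cancel]
    have h2 := orderOf_dvd_iff_zpow_eq_one.mpr h1
    have h3 : (d : ℤ) ∣ (d : ℤ) * k - (j : ℤ) := (Int.natCast_dvd_natCast.mpr hd).trans h2
    have h4 : (d : ℤ) ∣ (j : ℤ) := by
      have := dvd_sub (dvd_mul_right (d : ℤ) k) h3
      simpa using this
    exact Int.natCast_dvd_natCast.mp h4
  · rintro ⟨k, rfl⟩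
    rw [pow_mul]
    exact Subgroup.pow_mem _ (Subgroup.mem_zpowers _) _

theorem mem_zpowers_of_coprime {g : G} {j : ℕ} (h : Nat.Coprime j (orderOf g)) :
    g ∈ Subgroup.zpowers (g ^ j) := by
  have hb := Nat.gcd_eq_gcd_ab j (orderOf g)
  rw [h.gcd_eq_one] at hb
  have h1 : g = (g ^ j) ^ (Nat.gcdA j (orderOf g)) := by
    have h2 : g ^ ((j : ℤ) * Nat.gcdA j (orderOf g) + (orderOf g : ℤ) * Nat.gcdB j (orderOf g))
        = g := by
      rw [← hb]
      simp
    rw [zpow_add, zpow_mul, zpow_mul, zpow_natCast, zpow_natCast, pow_orderOf_eq_one, one_zpow,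
      mul_one] at h2
    exact h2.symm
  have h3 : (g ^ j) ^ (Nat.gcdA j (orderOf g)) ∈ Subgroup.zpowers (g ^ j) :=
    Subgroup.zpow_mem _ (Subgroup.mem_zpowers (g ^ j)) _
  rwa [← h1] at h3

open Classical in
/-- **Möbius indicator identity**: if `x` does not generate a subgroup containing `g`,
then `∑_{d ∣ n} μ(d) [x ∈ ⟨g^d⟩] = 0`. -/
theorem sum_moebius_indicator (g x : G) (hx : g ∉ Subgroup.zpowers x) :
    ∑ d ∈ (orderOf g).divisors,
      (moebius d : ℤ) * (if x ∈ Subgroup.zpowers (g ^ d) then 1 else 0) = 0 := by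
  have hn : 0 < orderOf g := orderOf_pos g
  by_cases hxg : x ∈ Subgroup.zpowers g
  · rw [← mem_powers_iff_mem_zpowers, Submonoid.mem_powers_iff] at hxg
    obtain ⟨j, rfl⟩ := hxg
    set m := Nat.gcd j (orderOf g) with hm
    have hm0 : m ≠ 0 := Nat.gcd_ne_zero_right hn.ne'
    have hmn : m ∣ orderOf g := Nat.gcd_dvd_right _ _
    have hm1 : m ≠ 1 := by
      intro h1
      exact hx (mem_zpowers_of_coprime (hm.symm.trans h1))
    have hind : ∀ d ∈ (orderOf g).divisors,
        (moebius d : ℤ) * (if g ^ j ∈ Subgroup.zpowers (g ^ d) then 1 else 0) =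
          if d ∣ m then (moebius d : ℤ) else 0 := by
      intro d hd
      have hdn : d ∣ orderOf g := (Nat.mem_divisors.mp hd).1
      have hiff : d ∣ j ↔ d ∣ m := by
        rw [hm, Nat.dvd_gcd_iff]
        exact ⟨fun h => ⟨h, hdn⟩, fun h => h.1⟩
      by_cases hdj : d ∣ j
      · rw [if_pos ((mem_zpowers_pow_iff hdn).mpr hdj), if_pos (hiff.mp hdj), mul_one]
      · rw [if_neg (fun h => hdj ((mem_zpowers_pow_iff hdn).mp h)),
          if_neg (fun h => hdj (hiff.mpr h)), mul_zero]
    rw [Finset.sum_congr rfl hind, ← Finset.sum_filter, Nat.divisors_filter_dvd_of_dvd hn.ne' hmn]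
    have h2 : ((moebius : ArithmeticFunction ℤ) * (zeta : ArithmeticFunction ℤ)) m =
        (1 : ArithmeticFunction ℤ) m := by
      rw [moebius_mul_coe_zeta]
    rw [coe_mul_zeta_apply, one_apply, if_neg hm1] at h2
    exact h2
  · refine Finset.sum_eq_zero fun d hd => ?_
    have : x ∉ Subgroup.zpowers (g ^ d) := fun h =>
      hxg ((Subgroup.zpowers_le.mpr (Subgroup.pow_mem _ (Subgroup.mem_zpowers g) d)) h)
    rw [if_neg this, mul_zero]

theorem card_zpowers_pow {g : G} {d : ℕ} (hd : d ∈ (orderOf g).divisors) :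
    Nat.card (Subgroup.zpowers (g ^ d)) = orderOf g / d := by
  have hdn := (Nat.mem_divisors.mp hd)
  have hd0 : d ≠ 0 := fun h => hdn.2 (by simpa [h] using hdn.1)
  rw [Nat.card_zpowers, orderOf_pow_of_dvd hd0 hdn.1]

end Fermat.Agent.Lib.FrobDensity
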