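import Mathlib
import Fermat.Agent.Lib.FrobDensity.Count

/-!
# Frobenius density, part 4: counting degree one primes of a fixed field

`L/ℚ` Galois number field, `G = Gal(L/ℚ)`, `H ≤ G`, `K = L^H`, `p ∤ discr L`.  Then
`|H| · #{𝔮 ⊂ 𝓞 K : N𝔮 = p} = f_p · #{𝔓 ⊂ 𝓞 L over p : Frob_𝔓 ∈ H}`.
-/

set_option autoImplicit false
set_option linter.unusedSectionVars false
set_option linter.unusedVariables false
set_option linter.style.haveILetI false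
set_option linter.unusedSimpArgs false

noncomputable section

namespace Fermat.Agent.Lib.FrobDensity

open NumberField

variable (L : Type*) [Field L] [NumberField L] [IsGalois ℚ L]

/-- the primes of `𝓞 L` over `p` at which some element of `H` is a Frobenius -/
def FrobIn (p : ℕ) (H : Subgroup (L ≃ₐ[ℚ] L)) : Type _ :=
  {𝔓 : PrimesAbove L p // ∃ φ ∈ H, IsArithFrobAt ℤ φ 𝔓.1}

variable {L}

theorem primesAbove_liesOver {p : ℕ} (hp : p.Prime) (𝔓 : Ideal (𝓞 L)) (h𝔓 : 𝔓.IsPrime)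
    (hmem : (p : 𝓞 L) ∈ 𝔓) : 𝔓.LiesOver (Ideal.span {(p : ℤ)}) := by
  rw [Ideal.liesOver_span_iff h𝔓.ne_top (Nat.prime_iff_prime_int.mp hp)]
  simpa using hmem

theorem under_int_eq {p : ℕ} (hp : p.Prime) (𝔓 : Ideal (𝓞 L)) (h𝔓 : 𝔓.IsPrime)
    (hmem : (p : 𝓞 L) ∈ 𝔓) : 𝔓.under ℤ = Ideal.span {(p : ℤ)} :=
  ((primesAbove_liesOver hp 𝔓 h𝔓 hmem).over).symm

theorem card_quot_under_int {p : ℕ} (hp : p.Prime) (𝔓 : Ideal (𝓞 L)) (h𝔓 : 𝔓.IsPrime)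
    (hmem : (p : 𝓞 L) ∈ 𝔓) : Nat.card (ℤ ⧸ 𝔓.under ℤ) = p := by
  rw [under_int_eq hp 𝔓 h𝔓 hmem, Int.card_ideal_quot]

/-- unfolding of the Frobenius property over `ℤ` -/
theorem isArithFrobAt_int_iff {p : ℕ} (hp : p.Prime) (𝔓 : Ideal (𝓞 L)) (h𝔓 : 𝔓.IsPrime)
    (hmem : (p : 𝓞 L) ∈ 𝔓) (φ : L ≃ₐ[ℚ] L) :
    IsArithFrobAt ℤ φ 𝔓 ↔ ∀ x : 𝓞 L, φ • x - x ^ p ∈ 𝔓 := by
  unfold IsArithFrobAt AlgHom.IsArithFrobAt
  rw [card_quot_under_int hp 𝔓 h𝔓 hmem]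
  rfl


theorem card_le_of_forall_pow_eq {F : Type*} [Field F] [Finite F] {p : ℕ} (hp : 1 < p)
    (h : ∀ y : F, y ^ p = y) : Nat.card F ≤ p := by
  classical
  haveI := Fintype.ofFinite F
  have hdeg : (Polynomial.X ^ p - Polynomial.X : Polynomial F).natDegree = p :=
    FiniteField.X_pow_card_sub_X_natDegree_eq F hp
  have hne : (Polynomial.X ^ p - Polynomial.X : Polynomial F) ≠ 0 := by
    intro h0
    rw [h0, Polynomial.natDegree_zero] at hdeg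
    omega
  have hsub : (Finset.univ : Finset F) ⊆
      (Polynomial.X ^ p - Polynomial.X : Polynomial F).roots.toFinset := by
    intro y _
    rw [Multiset.mem_toFinset, Polynomial.mem_roots hne, Polynomial.IsRoot.def]
    simp [h y]
  rw [Nat.card_eq_fintype_card, ← Finset.card_univ]
  calc (Finset.univ : Finset F).card
      ≤ (Polynomial.X ^ p - Polynomial.X : Polynomial F).roots.toFinset.card :=
        Finset.card_le_card hsub
    _ ≤ Multiset.card (Polynomial.X ^ p - Polynomial.X : Polynomial F).roots :=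
        Multiset.toFinset_card_le _
    _ ≤ _ := Polynomial.card_roots' _
    _ = p := hdeg

variable (H : Subgroup (L ≃ₐ[ℚ] L))

theorem smul_algebraMap_of_mem {φ : L ≃ₐ[ℚ] L} (hφ : φ ∈ H)
    (x : 𝓞 (IntermediateField.fixedField H)) :
    φ • (algebraMap (𝓞 (IntermediateField.fixedField H)) (𝓞 L) x) =
      algebraMap (𝓞 (IntermediateField.fixedField H)) (𝓞 L) x := by
  apply RingOfIntegers.ext
  show φ ((algebraMap (𝓞 (IntermediateField.fixedField H)) (𝓞 L) x : 𝓞 L) : L) = _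
  have hx : ((algebraMap (𝓞 (IntermediateField.fixedField H)) (𝓞 L) x : 𝓞 L) : L) =
      (((x : 𝓞 (IntermediateField.fixedField H)) : IntermediateField.fixedField H) : L) := rfl
  rw [hx]
  exact ((x : 𝓞 (IntermediateField.fixedField H)) : IntermediateField.fixedField H).2 ⟨φ, hφ⟩

/-- **(F1)** if the Frobenius at `𝔓` lies in `H`, then `𝔓 ∩ 𝓞 K` has norm `p`. -/
theorem absNorm_under_of_frob {p : ℕ} (hp : p.Prime) (𝔓 : Ideal (𝓞 L)) (h𝔓 : 𝔓.IsPrime)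
    (hmem : (p : 𝓞 L) ∈ 𝔓) {φ : L ≃ₐ[ℚ] L} (hφ : φ ∈ H) (hfrob : IsArithFrobAt ℤ φ 𝔓) :
    Ideal.absNorm (𝔓.under (𝓞 (IntermediateField.fixedField H))) = p := by
  set K := IntermediateField.fixedField H with hK
  set 𝔮 := 𝔓.under (𝓞 K) with h𝔮
  haveI : 𝔓.IsPrime := h𝔓
  have h𝔮prime : 𝔮.IsPrime := Ideal.IsPrime.under (𝓞 K) 𝔓
  have hp𝔮 : (p : 𝓞 K) ∈ 𝔮 := by
    rw [h𝔮, Ideal.under, Ideal.mem_comap]
    simpa using hmem
  have h𝔮0 : 𝔮 ≠ ⊥ := ne_bot_of_natCast_mem hp.ne_zero hp𝔮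
  haveI : 𝔮.IsMaximal := h𝔮prime.isMaximal h𝔮0
  letI : Field (𝓞 K ⧸ 𝔮) := Ideal.Quotient.field 𝔮
  haveI : Finite (𝓞 K ⧸ 𝔮) := Ideal.finiteQuotientOfFreeOfNeBot 𝔮 h𝔮0
  have hfr := (isArithFrobAt_int_iff hp 𝔓 h𝔓 hmem φ).mp hfrob
  have hpow : ∀ y : 𝓞 K ⧸ 𝔮, y ^ p = y := by
    intro y
    obtain ⟨x, rfl⟩ := Ideal.Quotient.mk_surjective y
    rw [← map_pow, eq_comm, Ideal.Quotient.eq, h𝔮, Ideal.under, Ideal.mem_comap, map_sub, map_pow]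
    have := hfr (algebraMap (𝓞 K) (𝓞 L) x)
    rwa [smul_algebraMap_of_mem H hφ] at this
  have hle : Nat.card (𝓞 K ⧸ 𝔮) ≤ p := card_le_of_forall_pow_eq hp.one_lt hpow
  have hdvd : p ∣ Ideal.absNorm 𝔮 := prime_dvd_absNorm hp h𝔮prime hp𝔮
  have hcard : Ideal.absNorm 𝔮 = Nat.card (𝓞 K ⧸ 𝔮) := by
    rw [Ideal.absNorm_apply, Submodule.cardQuot_apply]
  have hpos : 0 < Ideal.absNorm 𝔮 := by
    rw [hcard]
    exact Nat.card_pos
  exact le_antisymm (hcard ▸ hle) (Nat.le_of_dvd hpos hdvd)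


/-- **(F2)** if `𝔓` lies over a prime of `𝓞 K` of norm `p`, its Frobenius lies in `H`. -/
theorem exists_frob_mem_of_absNorm {p : ℕ} (hp : p.Prime) (𝔓 : Ideal (𝓞 L)) (h𝔓 : 𝔓.IsPrime)
    (hnorm : Ideal.absNorm (𝔓.under (𝓞 (IntermediateField.fixedField H))) = p) :
    (p : 𝓞 L) ∈ 𝔓 ∧ ∃ φ ∈ H, IsArithFrobAt ℤ φ 𝔓 := by
  set K := IntermediateField.fixedField H with hK
  set 𝔮 := 𝔓.under (𝓞 K) with h𝔮
  haveI : 𝔓.IsPrime := h𝔓
  have hp𝔮 : (p : 𝓞 K) ∈ 𝔮 := by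
    have := Ideal.absNorm_mem 𝔮
    rwa [hnorm] at this
  have hmem : (p : 𝓞 L) ∈ 𝔓 := by
    rw [h𝔮, Ideal.under, Ideal.mem_comap] at hp𝔮
    simpa using hp𝔮
  refine ⟨hmem, ?_⟩
  have h𝔓0 : 𝔓 ≠ ⊥ := ne_bot_of_natCast_mem hp.ne_zero hmem
  haveI : Finite (𝓞 L ⧸ 𝔓) := Ideal.finiteQuotientOfFreeOfNeBot 𝔓 h𝔓0
  obtain ⟨ψ, hψ⟩ := IsArithFrobAt.exists_of_isInvariant (𝓞 K) (L ≃ₐ[K] L) 𝔓
  refine ⟨ψ.restrictScalars ℚ, ?_, ?_⟩
  · rw [← IntermediateField.fixingSubgroup_fixedField H,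
      IntermediateField.mem_fixingSubgroup_iff]
    intro x hx
    exact ψ.commutes ⟨x, hx⟩
  · rw [isArithFrobAt_int_iff hp 𝔓 h𝔓 hmem]
    intro x
    have h1 := hψ x
    have hcard : Nat.card (𝓞 K ⧸ 𝔓.under (𝓞 K)) = p := by
      rw [← hnorm, Ideal.absNorm_apply, Submodule.cardQuot_apply]
    rw [hcard] at h1
    exact h1


variable (L) in
/-- the common inertia degree of the primes of `𝓞 L` over `p` -/
def fdeg (p : ℕ) : ℕ := (Ideal.span {(p : ℤ)}).inertiaDegIn (𝓞 L)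

theorem isUnramifiedAt_of_not_dvd {p : ℕ} (hp : p.Prime) (hdisc : ¬ (p : ℤ) ∣ NumberField.discr L)
    (𝔓 : Ideal (𝓞 L)) (h𝔓 : 𝔓.IsPrime) (hmem : (p : 𝓞 L) ∈ 𝔓) :
    Algebra.IsUnramifiedAt ℤ 𝔓 :=
  (NumberField.not_dvd_discr_iff_forall_mem L (𝓞 L) (Nat.prime_iff_prime_int.mp hp)).mp hdisc
    𝔓 h𝔓 (by simpa using hmem)

/-- **(F3)** the number of primes of `𝓞 L` over a prime of `𝓞 K` of norm `p`. -/
theorem ncard_primesOver_mul_fdeg {p : ℕ} (hp : p.Prime)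
    (hdisc : ¬ (p : ℤ) ∣ NumberField.discr L)
    (𝔮 : Ideal (𝓞 (IntermediateField.fixedField H))) (hnorm : Ideal.absNorm 𝔮 = p) :
    (𝔮.primesOver (𝓞 L)).ncard * fdeg L p = Nat.card H := by
  have hirr : Irreducible (Ideal.absNorm 𝔮) := by
    rw [hnorm]
    exact hp.prime.irreducible
  haveI h𝔮prime : 𝔮.IsPrime := Ideal.isPrime_of_irreducible_absNorm hirr
  have hp𝔮 : (p : 𝓞 (IntermediateField.fixedField H)) ∈ 𝔮 := by
    have := Ideal.absNorm_mem 𝔮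
    rwa [hnorm] at this
  obtain ⟨⟨𝔓, h𝔓prime, h𝔓over⟩⟩ := Ideal.nonempty_primesOver (S := 𝓞 L) 𝔮
  haveI := h𝔓prime
  haveI := h𝔓over
  have hmem : (p : 𝓞 L) ∈ 𝔓 := by
    have h1 : (p : 𝓞 (IntermediateField.fixedField H)) ∈ 𝔓.under (𝓞 (IntermediateField.fixedField H)) := by
      rw [← h𝔓over.over]
      exact hp𝔮
    rw [Ideal.under, Ideal.mem_comap] at h1
    simpa using h1
  haveI hℤ : 𝔓.LiesOver (Ideal.span {(p : ℤ)}) := primesAbove_liesOver hp 𝔓 h𝔓prime hmem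
  haveI h𝔮ℤ : 𝔮.LiesOver (Ideal.span {(p : ℤ)}) := by
    rw [Ideal.liesOver_span_iff h𝔮prime.ne_top (Nat.prime_iff_prime_int.mp hp)]
    simpa using hp𝔮
  haveI : Algebra.IsUnramifiedAt ℤ 𝔓 := isUnramifiedAt_of_not_dvd hp hdisc 𝔓 h𝔓prime hmem
  have he1 : 𝔓.ramificationIdx ℤ = 1 := Ideal.ramificationIdx_eq_one_of_isUnramifiedAt
  have he2 : 𝔓.ramificationIdx (𝓞 (IntermediateField.fixedField H)) = 1 := by
    have h1 : 𝔓.ramificationIdx (𝓞 (IntermediateField.fixedField H)) ∣ 𝔓.ramificationIdx ℤ :=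
      Ideal.ramificationIdx_above_dvd (R := ℤ) (S := 𝓞 (IntermediateField.fixedField H)) (T := 𝓞 L) 𝔮 𝔓
    rw [he1] at h1
    exact Nat.dvd_one.mp h1
  have hf1 : 𝔮.inertiaDeg ℤ = 1 := by
    have h1 := Ideal.pow_inertiaDeg p 𝔮
    rw [hnorm] at h1
    have h2 : p ^ 𝔮.inertiaDeg ℤ = p ^ 1 := by rw [h1, pow_one]
    exact Nat.pow_right_injective hp.two_le h2
  have hf2 : 𝔓.inertiaDeg ℤ = 𝔓.inertiaDeg (𝓞 (IntermediateField.fixedField H)) := by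
    have h1 := Ideal.inertiaDeg_tower (R := ℤ) (S := 𝓞 (IntermediateField.fixedField H)) (T := 𝓞 L) 𝔮 𝔓
    rw [hf1, one_mul] at h1
    exact h1
  have hf3 : fdeg L p = 𝔓.inertiaDeg ℤ :=
    Ideal.inertiaDegIn_eq_inertiaDeg (Ideal.span {(p : ℤ)}) 𝔓 (L ≃ₐ[ℚ] L)
  have hmain := Ideal.ncard_primesOver_mul_ramificationIdxIn_mul_inertiaDegIn 𝔮 (𝓞 L)
    (L ≃ₐ[IntermediateField.fixedField H] L)
  rw [Ideal.ramificationIdxIn_eq_ramificationIdx 𝔮 𝔓 (L ≃ₐ[IntermediateField.fixedField H] L),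
    Ideal.inertiaDegIn_eq_inertiaDeg 𝔮 𝔓 (L ≃ₐ[IntermediateField.fixedField H] L), he2, one_mul, ← hf2, ← hf3,
    IsGalois.card_aut_eq_finrank, IntermediateField.finrank_fixedField_eq_card] at hmain
  exact hmain


/-- the primes of `𝓞 L` with Frobenius in `H` are fibred over the primes of norm `p` of `𝓞 K` -/
def frobInEquiv {p : ℕ} (hp : p.Prime) :
    FrobIn L p H ≃
      Σ 𝔮 : {𝔮 : Ideal (𝓞 (IntermediateField.fixedField H)) // Ideal.absNorm 𝔮 = p},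
        𝔮.1.primesOver (𝓞 L) where
  toFun x :=
    ⟨⟨x.1.1.under (𝓞 (IntermediateField.fixedField H)), by
        obtain ⟨φ, hφ, hfrob⟩ := x.2
        exact absNorm_under_of_frob H hp x.1.1 x.1.2.1 x.1.2.2 hφ hfrob⟩,
      ⟨x.1.1, x.1.2.1, ⟨rfl⟩⟩⟩
  invFun y :=
    ⟨⟨y.2.1, y.2.2.1,
        (exists_frob_mem_of_absNorm H hp y.2.1 y.2.2.1
          (by rw [← y.2.2.2.over]; exact y.1.2)).1⟩,
      (exists_frob_mem_of_absNorm H hp y.2.1 y.2.2.1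
          (by rw [← y.2.2.2.over]; exact y.1.2)).2⟩
  left_inv x := rfl
  right_inv y := by
    obtain ⟨⟨𝔮, hnorm⟩, ⟨𝔓, h𝔓prime, h𝔓over⟩⟩ := y
    have h := h𝔓over.over
    subst h
    rfl

/-- **Counting identity (A2).** -/
theorem card_mul_idealCount {p : ℕ} (hp : p.Prime) (hdisc : ¬ (p : ℤ) ∣ NumberField.discr L) :
    Nat.card H * idealCount (IntermediateField.fixedField H) p =
      fdeg L p * Nat.card (FrobIn L p H) := by
  classical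
  haveI : Fintype {𝔮 : Ideal (𝓞 (IntermediateField.fixedField H)) // Ideal.absNorm 𝔮 = p} :=
    Fintype.ofFinite _
  haveI : ∀ 𝔮 : {𝔮 : Ideal (𝓞 (IntermediateField.fixedField H)) // Ideal.absNorm 𝔮 = p},
      Finite (𝔮.1.primesOver (𝓞 L)) := by
    intro 𝔮
    by_contra hinf
    have h0 : (𝔮.1.primesOver (𝓞 L)).ncard = 0 :=
      Set.Infinite.ncard (Set.not_finite.mp (fun hf => hinf hf.to_subtype))
    have := ncard_primesOver_mul_fdeg H hp hdisc 𝔮.1 𝔮.2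
    rw [h0, zero_mul] at this
    exact (Nat.card_pos (α := H)).ne' this.symm
  rw [Nat.card_congr (frobInEquiv H hp), Nat.card_sigma, Finset.mul_sum]
  have hterm : ∀ 𝔮 : {𝔮 : Ideal (𝓞 (IntermediateField.fixedField H)) // Ideal.absNorm 𝔮 = p},
      fdeg L p * Nat.card (𝔮.1.primesOver (𝓞 L)) = Nat.card H := by
    intro 𝔮
    rw [mul_comm, Nat.card_coe_set_eq]
    exact ncard_primesOver_mul_fdeg H hp hdisc 𝔮.1 𝔮.2
  rw [Finset.sum_congr rfl (fun 𝔮 _ => hterm 𝔮), Finset.sum_const, Finset.card_univ,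
    smul_eq_mul, mul_comm]
  congr 1
  unfold idealCount
  rw [Nat.card_eq_fintype_card]

end Fermat.Agent.Lib.FrobDensity
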