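import Mathlib
import Fermat.Agent.Lib.FrobDensity.Euler
import Fermat.Agent.Lib.FrobDensity.Split
import Fermat.Agent.Lib.FrobDensity.Moebius

/-!
# Frobenius density, part 6: every element of a finite Galois group lies in the cyclic group
generated by some Frobenius (weak Chebotarev, by Möbius inversion over cyclic subgroups)
-/

set_option autoImplicit false
set_option linter.unusedSectionVars false
set_option linter.unusedVariables false
set_option linter.style.haveILetI false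
set_option linter.unusedSimpArgs false

noncomputable section

namespace Fermat.Agent.Lib.FrobDensity

open NumberField Filter Topology ArithmeticFunction

variable {L : Type*} [Field L] [NumberField L] [IsGalois ℚ L]

theorem algEquiv_eq_of_smul_eq {φ ψ : L ≃ₐ[ℚ] L} (h : ∀ x : 𝓞 L, φ • x = ψ • x) : φ = ψ := by
  apply AlgEquiv.ext
  intro y
  obtain ⟨a, b, hb, rfl⟩ := IsFractionRing.div_surjective (A := 𝓞 L) y
  have ha' : φ (a : L) = ψ (a : L) := congrArg (fun z : 𝓞 L => (z : L)) (h a)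
  have hb' : φ (b : L) = ψ (b : L) := congrArg (fun z : 𝓞 L => (z : L)) (h b)
  rw [map_div₀, map_div₀]
  exact congrArg₂ (· / ·) ha' hb'

/-- uniqueness of the Frobenius at an unramified prime -/
theorem frob_unique {p : ℕ} (hp : p.Prime) (hdisc : ¬ (p : ℤ) ∣ NumberField.discr L)
    (𝔓 : Ideal (𝓞 L)) (h𝔓 : 𝔓.IsPrime) (hmem : (p : 𝓞 L) ∈ 𝔓) {φ ψ : L ≃ₐ[ℚ] L}
    (hφ : IsArithFrobAt ℤ φ 𝔓) (hψ : IsArithFrobAt ℤ ψ 𝔓) : φ = ψ := by
  haveI := h𝔓
  haveI := isUnramifiedAt_of_not_dvd hp hdisc 𝔓 h𝔓 hmem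
  have h := AlgHom.IsArithFrobAt.eq_of_isUnramifiedAt hφ hψ (Ideal.primeCompl_le_nonZeroDivisors 𝔓)
  apply algEquiv_eq_of_smul_eq
  intro x
  exact congrArg (fun f : 𝓞 L →ₐ[ℤ] 𝓞 L => f x) h

theorem exists_frob {p : ℕ} (hp : p.Prime) (𝔓 : Ideal (𝓞 L)) (h𝔓 : 𝔓.IsPrime)
    (hmem : (p : 𝓞 L) ∈ 𝔓) : ∃ φ : L ≃ₐ[ℚ] L, IsArithFrobAt ℤ φ 𝔓 := by
  haveI := h𝔓
  haveI : NeZero p := ⟨hp.ne_zero⟩
  haveI : Finite (𝓞 L ⧸ 𝔓) :=
    Ideal.finiteQuotientOfFreeOfNeBot 𝔓 (ne_bot_of_natCast_mem hp.ne_zero hmem)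
  exact IsArithFrobAt.exists_of_isInvariant ℤ (L ≃ₐ[ℚ] L) 𝔓

open Classical in
theorem card_frobIn_eq_sum {p : ℕ} (hp : p.Prime) (hdisc : ¬ (p : ℤ) ∣ NumberField.discr L)
    (frob : PrimesAbove L p → (L ≃ₐ[ℚ] L))
    (hfrob : ∀ 𝔓 : PrimesAbove L p, IsArithFrobAt ℤ (frob 𝔓) 𝔓.1)
    (H : Subgroup (L ≃ₐ[ℚ] L)) [Fintype (PrimesAbove L p)] :
    (Nat.card (FrobIn L p H) : ℤ) = ∑ 𝔓 : PrimesAbove L p, if frob 𝔓 ∈ H then 1 else 0 := by
  have hiff : ∀ 𝔓 : PrimesAbove L p, (∃ φ ∈ H, IsArithFrobAt ℤ φ 𝔓.1) ↔ frob 𝔓 ∈ H := by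
    intro 𝔓
    constructor
    · rintro ⟨φ, hφ, hφf⟩
      rwa [← frob_unique hp hdisc 𝔓.1 𝔓.2.1 𝔓.2.2 hφf (hfrob 𝔓)]
    · intro h
      exact ⟨frob 𝔓, h, hfrob 𝔓⟩
  unfold FrobIn
  rw [Nat.card_eq_fintype_card, Fintype.card_subtype, Finset.card_filter]
  push_cast
  refine Finset.sum_congr rfl fun 𝔓 _ => ?_
  simp only [hiff]

open Classical in
/-- If no Frobenius over `p` generates a subgroup containing `g`, the Möbius sum of the
Frobenius counts vanishes. -/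
theorem sum_moebius_card_frobIn {p : ℕ} (hp : p.Prime) (hdisc : ¬ (p : ℤ) ∣ NumberField.discr L)
    (g : L ≃ₐ[ℚ] L)
    (hneg : ∀ 𝔓 : Ideal (𝓞 L), 𝔓.IsPrime → (p : 𝓞 L) ∈ 𝔓 →
      ∀ φ : L ≃ₐ[ℚ] L, IsArithFrobAt ℤ φ 𝔓 → g ∉ Subgroup.zpowers φ) :
    ∑ d ∈ (orderOf g).divisors,
      (moebius d : ℤ) * (Nat.card (FrobIn L p (Subgroup.zpowers (g ^ d))) : ℤ) = 0 := by
  haveI : NeZero p := ⟨hp.ne_zero⟩
  haveI : Fintype (PrimesAbove L p) := Fintype.ofFinite _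
  choose frob hfrob using fun 𝔓 : PrimesAbove L p => exists_frob hp 𝔓.1 𝔓.2.1 𝔓.2.2
  simp_rw [card_frobIn_eq_sum hp hdisc frob hfrob, Finset.mul_sum]
  rw [Finset.sum_comm]
  refine Finset.sum_eq_zero fun 𝔓 _ => ?_
  exact sum_moebius_indicator g (frob 𝔓) (hneg 𝔓.1 𝔓.2.1 𝔓.2.2 _ (hfrob 𝔓))

/-- the per-prime identity -/
theorem sum_moebius_idealCount {p : ℕ} (hp : p.Prime) (hdisc : ¬ (p : ℤ) ∣ NumberField.discr L)
    (g : L ≃ₐ[ℚ] L)
    (hneg : ∀ 𝔓 : Ideal (𝓞 L), 𝔓.IsPrime → (p : 𝓞 L) ∈ 𝔓 →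
      ∀ φ : L ≃ₐ[ℚ] L, IsArithFrobAt ℤ φ 𝔓 → g ∉ Subgroup.zpowers φ) :
    ∑ d ∈ (orderOf g).divisors,
      (moebius d : ℤ) * (((orderOf g / d : ℕ) : ℤ) *
        (idealCount (IntermediateField.fixedField (Subgroup.zpowers (g ^ d))) p : ℤ)) = 0 := by
  have h := sum_moebius_card_frobIn hp hdisc g hneg
  have h2 : ∑ d ∈ (orderOf g).divisors,
      (moebius d : ℤ) * (((orderOf g / d : ℕ) : ℤ) *
        (idealCount (IntermediateField.fixedField (Subgroup.zpowers (g ^ d))) p : ℤ)) =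
      (fdeg L p : ℤ) * ∑ d ∈ (orderOf g).divisors,
      (moebius d : ℤ) * (Nat.card (FrobIn L p (Subgroup.zpowers (g ^ d))) : ℤ) := by
    rw [Finset.mul_sum]
    refine Finset.sum_congr rfl fun d hd => ?_
    have h3 := card_mul_idealCount (Subgroup.zpowers (g ^ d)) hp hdisc
    rw [card_zpowers_pow hd] at h3
    have h4 : ((orderOf g / d : ℕ) : ℤ) *
        (idealCount (IntermediateField.fixedField (Subgroup.zpowers (g ^ d))) p : ℤ) =
        (fdeg L p : ℤ) * (Nat.card (FrobIn L p (Subgroup.zpowers (g ^ d))) : ℤ) := by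
      exact_mod_cast h3
    rw [h4]
    ring
  rw [h2, h, mul_zero]

/-- the fixed field of `⟨g^d⟩` -/
abbrev fixedPow (g : L ≃ₐ[ℚ] L) (d : ℕ) : IntermediateField ℚ L :=
  IntermediateField.fixedField (Subgroup.zpowers (g ^ d))

/-- the Möbius coefficient `μ(d) · n/d` -/
def mcoef (n d : ℕ) : ℝ := ((moebius d : ℤ) : ℝ) * ((n / d : ℕ) : ℝ)

theorem sum_mcoef (n : ℕ) (hn : 0 < n) : ∑ d ∈ n.divisors, mcoef n d = (n.totient : ℝ) := by
  have h := sum_moebius_mul_div n hn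
  have h2 := congrArg (fun z : ℤ => (z : ℝ)) h
  simp only [Int.cast_sum, Int.cast_mul, Int.cast_natCast] at h2
  exact h2

/-- the Möbius combination of the prime sums -/
def Tsum (g : L ≃ₐ[ℚ] L) (s : ℝ) : ℝ :=
  ∑ d ∈ (orderOf g).divisors, mcoef (orderOf g) d * primeSum (fixedPow g d) s

/-- the `m`-th term of the Möbius combination -/
def Tterm (g : L ≃ₐ[ℚ] L) (s : ℝ) (m : ℕ) : ℝ :=
  ∑ d ∈ (orderOf g).divisors, mcoef (orderOf g) d * pterm (fixedPow g d) s m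

theorem Tsum_eq_tsum (g : L ≃ₐ[ℚ] L) {s : ℝ} (hs : 1 < s) :
    Tsum g s = ∑' m, Tterm g s m := by
  unfold Tsum Tterm
  rw [Summable.tsum_finsetSum]
  · refine Finset.sum_congr rfl fun d _ => ?_
    rw [primeSum, tsum_mul_left]
  · intro d _
    exact (summable_pterm (fixedPow g d) hs).mul_left _

theorem Tterm_eq (g : L ≃ₐ[ℚ] L) (s : ℝ) {p : ℕ} (hp : p.Prime) :
    Tterm g s p = ((∑ d ∈ (orderOf g).divisors,
      (moebius d : ℤ) * (((orderOf g / d : ℕ) : ℤ) *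
        (idealCount (fixedPow g d) p : ℤ)) : ℤ) : ℝ) * (p : ℝ) ^ (-s) := by
  unfold Tterm mcoef
  rw [Int.cast_sum, Finset.sum_mul]
  refine Finset.sum_congr rfl fun d _ => ?_
  rw [pterm_of_prime _ s hp, zterm]
  simp only [Int.cast_mul, Int.cast_natCast]
  ring

theorem Tterm_of_not_prime (g : L ≃ₐ[ℚ] L) (s : ℝ) {m : ℕ} (hm : ¬ m.Prime) :
    Tterm g s m = 0 := by
  unfold Tterm
  refine Finset.sum_eq_zero fun d _ => ?_
  rw [pterm, if_neg hm, mul_zero]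

theorem pterm_le_idealCount (K : Type*) [Field K] [NumberField K] {s : ℝ} (hs : 0 ≤ s) (m : ℕ) :
    pterm K s m ≤ (idealCount K m : ℝ) := by
  unfold pterm
  split_ifs with h
  · unfold zterm
    have h1 : (m : ℝ) ^ (-s) ≤ 1 :=
      Real.rpow_le_one_of_one_le_of_nonpos (by exact_mod_cast h.one_le) (by linarith)
    calc (idealCount K m : ℝ) * (m : ℝ) ^ (-s) ≤ (idealCount K m : ℝ) * 1 :=
          mul_le_mul_of_nonneg_left h1 (Nat.cast_nonneg _)
      _ = _ := mul_one _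
  · exact Nat.cast_nonneg _

theorem abs_Tterm_le (g : L ≃ₐ[ℚ] L) {s : ℝ} (hs : 0 ≤ s) (m : ℕ) :
    |Tterm g s m| ≤ ∑ d ∈ (orderOf g).divisors,
      |mcoef (orderOf g) d| * (idealCount (fixedPow g d) m : ℝ) := by
  unfold Tterm
  refine (Finset.abs_sum_le_sum_abs _ _).trans (Finset.sum_le_sum fun d _ => ?_)
  rw [abs_mul, abs_of_nonneg (pterm_nonneg _ s m)]
  exact mul_le_mul_of_nonneg_left (pterm_le_idealCount _ hs m) (abs_nonneg _)

theorem tendsto_log_inv_sub_one :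
    Tendsto (fun s : ℝ => Real.log (1 / (s - 1))) (𝓝[>] (1 : ℝ)) atTop := by
  have h1 : Tendsto (fun s : ℝ => s - 1) (𝓝[>] (1 : ℝ)) (𝓝[>] (0 : ℝ)) := by
    rw [tendsto_nhdsWithin_iff]
    constructor
    · have : Tendsto (fun s : ℝ => s - 1) (𝓝 (1 : ℝ)) (𝓝 (0 : ℝ)) :=
        (continuous_sub_right (1 : ℝ)).tendsto' 1 0 (sub_self 1)
      exact this.mono_left nhdsWithin_le_nhds
    · filter_upwards [self_mem_nhdsWithin] with s hs
      simpa using hs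
  have h2 := tendsto_inv_nhdsGT_zero.comp h1
  have h3 := Real.tendsto_log_atTop.comp h2
  refine h3.congr fun s => ?_
  simp [one_div]

/-- **Frobenius density, weak form**: every element `g` of the Galois group of a finite
Galois extension `L/ℚ` lies in the cyclic group generated by a Frobenius at a prime over some
rational prime `p ∉ S` not dividing the discriminant. -/
theorem exists_frob_generating (g : L ≃ₐ[ℚ] L) (S : Finset ℕ) :
    ∃ p : ℕ, p.Prime ∧ p ∉ S ∧ ¬ (p : ℤ) ∣ NumberField.discr L ∧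
      ∃ 𝔓 : Ideal (𝓞 L), 𝔓.IsPrime ∧ (p : 𝓞 L) ∈ 𝔓 ∧
        ∃ φ : L ≃ₐ[ℚ] L, IsArithFrobAt ℤ φ 𝔓 ∧ g ∈ Subgroup.zpowers φ := by
  by_contra hcon
  have hneg : ∀ p : ℕ, p.Prime → p ∉ S → ¬ (p : ℤ) ∣ NumberField.discr L →
      ∀ 𝔓 : Ideal (𝓞 L), 𝔓.IsPrime → (p : 𝓞 L) ∈ 𝔓 →
      ∀ φ : L ≃ₐ[ℚ] L, IsArithFrobAt ℤ φ 𝔓 → g ∉ Subgroup.zpowers φ := by
    intro p hp hpS hdisc 𝔓 h𝔓 hmem φ hφ hg
    exact hcon ⟨p, hp, hpS, hdisc, 𝔓, h𝔓, hmem, φ, hφ, hg⟩
  have hn0 : 0 < orderOf g := orderOf_pos g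
  -- the exceptional set
  set S' : Finset ℕ := S ∪ Finset.range ((NumberField.discr L).natAbs + 1) with hS'
  have hvanish : ∀ (s : ℝ) (m : ℕ), m ∉ S' → Tterm g s m = 0 := by
    intro s m hm
    by_cases hmp : m.Prime
    · have hmS : m ∉ S := fun h => hm (Finset.mem_union_left _ h)
      have hmd : ¬ (m : ℤ) ∣ NumberField.discr L := by
        intro hdvd
        apply hm
        refine Finset.mem_union_right _ (Finset.mem_range.mpr (Nat.lt_succ_of_le ?_))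
        have h1 : m ∣ (NumberField.discr L).natAbs := Int.natCast_dvd.mp hdvd
        exact Nat.le_of_dvd (Int.natAbs_pos.mpr (NumberField.discr_ne_zero L)) h1
      rw [Tterm_eq g s hmp, sum_moebius_idealCount hmp hmd g (hneg m hmp hmS hmd)]
      simp
    · exact Tterm_of_not_prime g s hmp
  -- the uniform bound
  set B : ℝ := ∑ m ∈ S', ∑ d ∈ (orderOf g).divisors,
      |mcoef (orderOf g) d| * (idealCount (fixedPow g d) m : ℝ) with hB
  have hbound : ∀ s : ℝ, 1 < s → |Tsum g s| ≤ B := by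
    intro s hs
    rw [Tsum_eq_tsum g hs, tsum_eq_sum (s := S') (fun m hm => hvanish s m hm)]
    refine (Finset.abs_sum_le_sum_abs _ _).trans (Finset.sum_le_sum fun m _ => ?_)
    exact abs_Tterm_le g (by linarith) m
  -- the asymptotics
  choose C hC using fun d : ℕ => primeSum_sub_log_bdd (fixedPow g d)
  have hev : ∀ᶠ s in 𝓝[>] (1 : ℝ), ∀ d ∈ (orderOf g).divisors,
      |primeSum (fixedPow g d) s - Real.log (1 / (s - 1))| ≤ C d :=
    (Filter.eventually_all_finset _).mpr fun d _ => hC d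
  set C' : ℝ := ∑ d ∈ (orderOf g).divisors, |mcoef (orderOf g) d| * C d with hC'
  have hasym : ∀ᶠ s in 𝓝[>] (1 : ℝ),
      |Tsum g s - ((orderOf g).totient : ℝ) * Real.log (1 / (s - 1))| ≤ C' := by
    filter_upwards [hev] with s hs
    have h1 : Tsum g s - ((orderOf g).totient : ℝ) * Real.log (1 / (s - 1)) =
        ∑ d ∈ (orderOf g).divisors, mcoef (orderOf g) d *
          (primeSum (fixedPow g d) s - Real.log (1 / (s - 1))) := by
      rw [← sum_mcoef _ hn0, Finset.sum_mul, Tsum, ← Finset.sum_sub_distrib]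
      refine Finset.sum_congr rfl fun d _ => ?_
      ring
    rw [h1]
    refine (Finset.abs_sum_le_sum_abs _ _).trans (Finset.sum_le_sum fun d hd => ?_)
    rw [abs_mul]
    exact mul_le_mul_of_nonneg_left (hs d hd) (abs_nonneg _)
  have hlarge : ∀ᶠ s in 𝓝[>] (1 : ℝ), |B| + |C'| + 1 ≤ Real.log (1 / (s - 1)) :=
    tendsto_log_inv_sub_one.eventually_ge_atTop _
  have hgt : ∀ᶠ s in 𝓝[>] (1 : ℝ), (1 : ℝ) < s := by
    filter_upwards [self_mem_nhdsWithin] with s hs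
    exact hs
  obtain ⟨s, hs1, hs2, hs3⟩ := (hasym.and (hlarge.and hgt)).exists
  have hb := hbound s hs3
  have htot : (1 : ℝ) ≤ ((orderOf g).totient : ℝ) := by
    exact_mod_cast Nat.totient_pos.mpr hn0
  have hlog0 : 0 ≤ Real.log (1 / (s - 1)) := by
    have := abs_nonneg B
    have := abs_nonneg C'
    linarith
  have h4 : Real.log (1 / (s - 1)) ≤ ((orderOf g).totient : ℝ) * Real.log (1 / (s - 1)) := by
    nlinarith
  have h5 := abs_le.mp hs1
  have h6 := abs_le.mp hb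
  have h7 := le_abs_self B
  have h8 := le_abs_self C'
  linarith [h5.1, h5.2, h6.1, h6.2]

end Fermat.Agent.Lib.FrobDensity

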