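import Mathlib
import Fermat.Agent.Lib.FrobDensity.Final
import Fermat.Agent.Lib.FrobDensity.Bridge
import Fermat.Agent.Lib.GalRep.Assemble

/-!
# Frobenius density, part 7: the existence form `FrobeniusGenerates`
-/

set_option autoImplicit false
set_option linter.unusedSectionVars false
set_option linter.unusedVariables false
set_option linter.style.haveILetI false
set_option linter.unusedSimpArgs false

noncomputable section

namespace Fermat.Agent.Lib.FrobDensity

open NumberField

local notation "Qbar" => AlgebraicClosure ℚ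

/-- **Frobenius density theorem (existence form)**, for a finite Galois subextension. -/
theorem frobeniusGenerates_galois (N : IntermediateField ℚ Qbar) [FiniteDimensional ℚ N]
    [IsGalois ℚ N] (S : Finset ℕ) (σ : Qbar ≃ₐ[ℚ] Qbar) :
    ∃ (ℓ : ℕ) (A : ValuationSubring Qbar) (σ' : Qbar ≃ₐ[ℚ] Qbar) (m : ℕ),
      ℓ.Prime ∧ ℓ ∉ S ∧ A.LiesOverPrime ℓ ∧ A.IsFrobeniusAt σ' ℓ ∧
        ∀ x ∈ N, σ x = (σ' ^ m) x := by
  haveI : NumberField N := ⟨⟩
  obtain ⟨p, hp, hpS, hdisc, 𝔓, h𝔓, hmem, φ, hφ, hg⟩ :=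
    exists_frob_generating (σ.restrictNormal N) S
  haveI := h𝔓
  obtain ⟨A, σ', hA, hF, hres⟩ :=
    Bridge.exists_isFrobeniusAt_restrict_intermediateField N p hp hdisc 𝔓 hmem φ hφ
  rw [← mem_powers_iff_mem_zpowers, Submonoid.mem_powers_iff] at hg
  obtain ⟨m, hm⟩ := hg
  refine ⟨p, A, σ', m, hp, hpS, hA, hF, ?_⟩
  intro x hx
  have h1 := Bridge.pow_restrict (K := N) hres m ⟨x, hx⟩
  rw [hm] at h1
  have h2 := AlgEquiv.restrictNormal_commutes σ N ⟨x, hx⟩
  exact h2.symm.trans h1.symm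

/-- **Frobenius density theorem (existence form)**. -/
theorem frobeniusGenerates : Fermat.Agent.Lib.GalRep.FrobeniusGenerates := by
  intro L hL S σ
  haveI := hL
  haveI : Algebra.IsAlgebraic ℚ Qbar := AlgebraicClosure.isAlgebraic ℚ
  haveI : IsAlgClosure ℚ Qbar := ⟨inferInstance, inferInstance⟩
  haveI : Normal ℚ Qbar := IsAlgClosure.normal ℚ Qbar
  haveI : FiniteDimensional ℚ (IntermediateField.normalClosure ℚ L Qbar) :=
    normalClosure.is_finiteDimensional ℚ L Qbar
  haveI : Normal ℚ (IntermediateField.normalClosure ℚ L Qbar) :=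
    normalClosure.normal ℚ L Qbar
  haveI : IsGalois ℚ (IntermediateField.normalClosure ℚ L Qbar) := ⟨⟩
  obtain ⟨ℓ, A, σ', m, h1, h2, h3, h4, h5⟩ :=
    frobeniusGenerates_galois (IntermediateField.normalClosure ℚ L Qbar) S σ
  refine ⟨ℓ, A, σ', m, h1, h2, h3, h4, fun x hx => h5 x ?_⟩
  exact IntermediateField.le_normalClosure L hx

end Fermat.Agent.Lib.FrobDensity

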